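import Fermat.Agent.EichlerShimura.Forms
import Fermat.Prelude.Def_ModularCurve_PeriodHomPair

set_option autoImplicit false

noncomputable section

namespace Fermat.Agent.EichlerShimura

open UpperHalfPlane hiding I
open Complex Filter Topology Function Metric Asymptotics
open scoped Real Manifold MatrixGroups ModularForm Pointwise
open ModularCurve ModularCurve.Period CongruenceSubgroup

variable {N : ℕ} [NeZero N]

theorem good_cusp (f : CuspForm (Gamma0 N) 2) : Good ⇑f := by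
  obtain ⟨M, hM, hq⟩ := exists_period N
  intro δ
  exact ((hq 2 f δ).isPrim_prim (by exact_mod_cast hM)).hasPrim

theorem isZero_prim_slash (f : CuspForm (Gamma0 N) 2) (δ : SL(2, ℤ)) :
    IsZeroAtImInfty (prim (⇑f ∣[(2 : ℤ)] δ)) := by
  obtain ⟨M, hM, hq⟩ := exists_period N
  exact ((hq 2 f δ).isQ_prim (by exact_mod_cast hM)).zero

theorem prim_smul_eq (f : CuspForm (Gamma0 N) 2) (δ : SL(2, ℤ)) (z : ℍ) :
    prim ⇑f (δ • z) = prim (⇑f ∣[(2 : ℤ)] δ) z + symb δ ⇑f := by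
  rw [← (good_cusp f).sub_eq_symb δ z]; ring

theorem prim_smul_Gamma0 (f : CuspForm (Gamma0 N) 2) {γ : SL(2, ℤ)} (hγ : γ ∈ Gamma0 N) (z : ℍ) :
    prim ⇑f (γ • z) = prim ⇑f z + symb γ ⇑f := by
  rw [prim_smul_eq, slash_Gamma0 f hγ]

theorem hasEquivariantPrimitive (f : CuspForm (Gamma0 N) 2) :
    HasEquivariantPrimitive N f (prim ⇑f) := by
  refine ⟨(good_cusp f).hasPrim.isPrim.deriv, ?_, fun γ => ⟨symb (γ : SL(2, ℤ)) ⇑f, fun z => ?_⟩,
    fun δ => ⟨symb δ ⇑f, ?_⟩⟩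
  · simpa [IsZeroAtImInfty, ZeroAtFilter] using! isZero_prim_slash f 1
  · rw [prim_smul_Gamma0 f γ.2]; ring
  · have h1 : Tendsto (prim (⇑f ∣[(2 : ℤ)] δ)) atImInfty (𝓝 0) := isZero_prim_slash f δ
    have h2 := h1.add_const (symb δ ⇑f)
    rw [zero_add] at h2
    exact h2.congr fun w => (prim_smul_eq f δ w).symm

/-- the period homomorphism -/
theorem periodMap_apply (f : CuspForm (Gamma0 N) 2) (γ : Additive (Gamma0 N)) :
    periodMap N f γ = symb ((Additive.toMul γ : Gamma0 N) : SL(2, ℤ)) ⇑f := by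
  obtain ⟨F₀, h₀, h⟩ := periodMap_def N f (hasEquivariantPrimitive f)
  rw [h]
  have h1 : IsAnti ⇑f F₀ := h₀.1
  have h2 := h1.sub_const (good_cusp f).hasPrim.isPrim.deriv
    (((Additive.toMul γ : Gamma0 N) : SL(2, ℤ)) • UpperHalfPlane.I) UpperHalfPlane.I
  rw [prim_smul_Gamma0 f (Additive.toMul γ).2] at h2
  change F₀ _ - F₀ _ = _
  linear_combination h2

variable (N) in
/-- linear version of the period map -/
def periodLin : CuspForm (Gamma0 N) 2 →ₗ[ℂ] (Additive (Gamma0 N) →+ ℂ) where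
  toFun f := periodMap N f
  map_add' f g := by
    refine AddMonoidHom.ext fun γ => ?_
    rw [AddMonoidHom.add_apply, periodMap_apply, periodMap_apply, periodMap_apply,
      FunLike.coe_add, symb_add (good_cusp f) (good_cusp g)]
  map_smul' c f := by
    refine AddMonoidHom.ext fun γ => ?_
    rw [RingHom.id_apply, AddMonoidHom.smul_apply, periodMap_apply, periodMap_apply,
      FunLike.coe_smul, symb_smul c (good_cusp f), smul_eq_mul]

theorem existsPeriodMapLinear {N : ℕ} [NeZero N] : ExistsPeriodMapLinear N := ⟨periodLin N, fun _ => rfl⟩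

theorem periodLin_apply (f : CuspForm (Gamma0 N) 2) (γ : Additive (Gamma0 N)) :
    periodLin N f γ = symb ((Additive.toMul γ : Gamma0 N) : SL(2, ℤ)) ⇑f := periodMap_apply f γ

theorem periodHomPair_eq : periodHomPair N = LinearMap.coprod
    ((LinearMap.id + charInvolution N ℂ ℂ) ∘ₗ periodLin N)
    ((LinearMap.id - charInvolution N ℂ ℂ) ∘ₗ periodLin N) := by
  obtain ⟨pml, h1, h2⟩ := periodHomPair_def N existsPeriodMapLinear
  have : pml = periodLin N := LinearMap.ext fun f => (h1 f)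
  rw [h2, this]

theorem periodHomPair_apply (f g : CuspForm (Gamma0 N) 2) :
    periodHomPair N (f, g) = (periodLin N f + charInvolution N ℂ ℂ (periodLin N f)) +
      (periodLin N g - charInvolution N ℂ ℂ (periodLin N g)) := by
  rw [periodHomPair_eq]
  simp

/-! ### periods vanish on parabolic elements -/

theorem exists_fixed_vector (γ : SL(2, ℤ))
    (hγ : (γ : Matrix (Fin 2) (Fin 2) ℤ).trace ^ 2 = 4) :
    ∃ δ : SL(2, ℤ), (δ⁻¹ * γ * δ) 1 0 = 0 := by
  obtain ⟨ε, hε, htr⟩ : ∃ ε : ℤ, ε * ε = 1 ∧ (γ : Matrix (Fin 2) (Fin 2) ℤ).trace = 2 * ε := by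
    have h : ((γ : Matrix (Fin 2) (Fin 2) ℤ).trace - 2) *
        ((γ : Matrix (Fin 2) (Fin 2) ℤ).trace + 2) = 0 := by linear_combination hγ
    rcases mul_eq_zero.mp h with h | h
    · exact ⟨1, by norm_num, by linarith⟩
    · exact ⟨-1, by norm_num, by linarith⟩
  rw [Matrix.trace_fin_two] at htr
  have hdet := γ.det_coe
  rw [Matrix.det_fin_two] at hdet
  obtain ⟨x, y, hxy, h1, h2⟩ : ∃ x y : ℤ, ¬ (x = 0 ∧ y = 0) ∧
      γ 0 0 * x + γ 0 1 * y = ε * x ∧ γ 1 0 * x + γ 1 1 * y = ε * y := by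
    by_cases h0 : γ 0 1 = 0 ∧ ε - γ 0 0 = 0
    · refine ⟨0, 1, by simp, ?_, ?_⟩
      · rw [h0.1]; ring
      · linear_combination htr + h0.2
    · refine ⟨γ 0 1, ε - γ 0 0, h0, by ring, ?_⟩
      linear_combination (-1 : ℤ) * hdet + ε * htr + hε
  obtain ⟨g, x', y', hg, hcop, hx', hy'⟩ : ∃ g x' y' : ℤ, g ≠ 0 ∧ IsCoprime x' y' ∧
      x = x' * g ∧ y = y' * g := by
    have hgcd : 0 < Int.gcd x y := Int.gcd_pos_iff.mpr (by tauto)
    obtain ⟨x', y', hc, h1, h2⟩ := Int.exists_gcd_one hgcd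
    exact ⟨Int.gcd x y, x', y', by exact_mod_cast hgcd.ne', Int.isCoprime_iff_gcd_eq_one.mpr hc, h1, h2⟩
  have h1' : γ 0 0 * x' + γ 0 1 * y' = ε * x' := by
    apply mul_right_cancel₀ hg
    rw [hx', hy'] at h1
    linear_combination h1
  have h2' : γ 1 0 * x' + γ 1 1 * y' = ε * y' := by
    apply mul_right_cancel₀ hg
    rw [hx', hy'] at h2
    linear_combination h2
  obtain ⟨δ, hδ0, hδ1⟩ := hcop.exists_SL2_col 0
  refine ⟨δ, ?_⟩
  have e : (δ⁻¹ * γ * δ) 1 0 = -δ 1 0 * (γ 0 0 * δ 0 0 + γ 0 1 * δ 1 0) +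
      δ 0 0 * (γ 1 0 * δ 0 0 + γ 1 1 * δ 1 0) := by
    have : (δ⁻¹ * γ * δ : SL(2, ℤ)) 1 0 =
      (((δ⁻¹ : SL(2, ℤ)) : Matrix (Fin 2) (Fin 2) ℤ) * (γ : Matrix (Fin 2) (Fin 2) ℤ) *
        (δ : Matrix (Fin 2) (Fin 2) ℤ)) 1 0 := rfl
    rw [this, Matrix.SpecialLinearGroup.coe_inv, Matrix.adjugate_fin_two]
    simp [Matrix.mul_apply, Fin.sum_univ_two, Matrix.vecMul, dotProduct]
    ring
  rw [e, hδ0, hδ1, h1', h2']
  ring

theorem symb_upper {φ : ℍ → ℂ} (h : Good φ) (t : SL(2, ℤ)) (ht : t 1 0 = 0) : symb t φ = 0 := by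
  have h1 := prim_slash h.hasPrim (A := (t : GL (Fin 2) ℝ)) (det_coe_pos _) (by simp [ht])
  have h2 := congrFun h1 UpperHalfPlane.I
  rw [symb, sub_eq_zero]
  exact h2.symm

theorem symb_parabolic (f : CuspForm (Gamma0 N) 2) {γ : SL(2, ℤ)} (hγ : γ ∈ Gamma0 N)
    (htr : (γ : Matrix (Fin 2) (Fin 2) ℤ).trace ^ 2 = 4) : symb γ ⇑f = 0 := by
  obtain ⟨δ, hδ⟩ := exists_fixed_vector γ htr
  have hf := good_cusp f
  have h1 : symb (γ * δ) ⇑f = symb γ ⇑f + symb δ ⇑f := by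
    rw [symb_mul hf, slash_Gamma0 f hγ]
  have h2 : symb (δ * (δ⁻¹ * γ * δ)) ⇑f = symb δ ⇑f := by
    rw [symb_mul hf, symb_upper (hf.slash δ) _ hδ, add_zero]
  have h3 : δ * (δ⁻¹ * γ * δ) = γ * δ := by group
  rw [h3, h1] at h2
  linear_combination h2

theorem periodLin_mem (f : CuspForm (Gamma0 N) 2) :
    periodLin N f ∈ parabolicHoms ℂ (Gamma0 N) ℂ := by
  rw [mem_parabolicHoms_iff]
  intro γ hγ
  rw [periodLin_apply]
  exact symb_parabolic f γ.2 hγ

theorem range_periodHomPair_le :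
    LinearMap.range (periodHomPair N) ≤ parabolicHoms ℂ (Gamma0 N) ℂ := by
  rintro _ ⟨⟨f, g⟩, rfl⟩
  rw [periodHomPair_apply]
  have hf := periodLin_mem f
  have hg := periodLin_mem g
  exact add_mem (add_mem hf (charInvolution_mem_parabolicHoms N ℂ ℂ hf))
    (sub_mem hg (charInvolution_mem_parabolicHoms N ℂ ℂ hg))

end Fermat.Agent.EichlerShimura
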