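import Fermat.Agent.EichlerShimura.MaxPrinciple
import Fermat.Agent.EichlerShimura.Period

set_option autoImplicit false

noncomputable section

namespace Fermat.Agent.EichlerShimura

open UpperHalfPlane hiding I
open Complex Filter Topology Function Metric Asymptotics
open scoped Real Manifold MatrixGroups ModularForm Pointwise ComplexConjugate
open ModularCurve ModularCurve.Period CongruenceSubgroup

/-- `z ↦ conj (F (-conj z))`. -/
def cj (F : ℍ → ℂ) : ℍ → ℂ := fun z => conj (F (J • z))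

theorem IsAnti.cj {φ F : ℍ → ℂ} (h : IsAnti φ F) : IsAnti (-(cj φ)) (cj F) := by
  intro τ
  have h1 : HasDerivAt (F ∘ ofComplex) (φ (J • τ)) (-(conj (τ : ℂ))) := by
    have := h (J • τ)
    rwa [coe_J_smul] at this
  have h2 : HasDerivAt (fun w => (F ∘ ofComplex) (-w)) (φ (J • τ) * (-1)) (conj (τ : ℂ)) :=
    HasDerivAt.comp (conj (τ : ℂ)) h1 (hasDerivAt_neg _)
  have h3 := h2.conj_conj
  rw [Complex.conj_conj] at h3
  have h4 : conj (φ (J • τ) * (-1)) = (-(Fermat.Agent.EichlerShimura.cj φ)) τ := by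
    simp [Fermat.Agent.EichlerShimura.cj]
  rw [h4] at h3
  refine h3.congr_of_eventuallyEq ?_
  filter_upwards [isOpen_upperHalfPlaneSet.mem_nhds τ.im_pos] with w hw
  have hw' : 0 < w.im := hw
  simp only [comp_apply, Fermat.Agent.EichlerShimura.cj, J_smul]
  rw [ofComplex_apply_of_im_pos hw']

theorem mdiff_of_isAnti {φ F : ℍ → ℂ} (h : IsAnti φ F) : MDiff F := fun τ =>
  UpperHalfPlane.mdifferentiableAt_iff.mpr (h τ).differentiableAt

theorem isAnti_of_mdiff {F : ℍ → ℂ} (h : MDiff F) :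
    IsAnti (fun τ => deriv (F ∘ ofComplex) τ) F := fun τ =>
  (UpperHalfPlane.mdifferentiableAt_iff.mp (h τ)).hasDerivAt

theorem IsQ.apply_eq {h : ℝ} {g : ℍ → ℂ} (hg : IsQ h g) {z w : ℍ} (hzw : (w : ℂ) = z + h) :
    g w = g z := by
  have := hg.per z
  simp only [comp_apply, ← hzw, ofComplex_apply] at this
  exact this

theorem IsQ.cj {h : ℝ} {g : ℍ → ℂ} (hg : IsQ h g) : IsQ h (cj g) := by
  refine ⟨periodic_comp_ofComplex_of fun z w hzw => ?_, mdiff_of_isAnti (isAnti_of_mdiff hg.holo).cj, ?_⟩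
  · have : g (J • z) = g (J • w) := by
      refine hg.apply_eq ?_
      rw [coe_J_smul, coe_J_smul, hzw]
      simp
    simp only [Fermat.Agent.EichlerShimura.cj, this]
  · have h1 : Tendsto g atImInfty (𝓝 0) := hg.zero
    have h2 : Tendsto (fun z : ℍ => J • z) atImInfty atImInfty := tendsto_smul_atImInfty (by simp)
    have h3 := (Complex.continuous_conj.tendsto _).comp (h1.comp h2)
    rw [map_zero] at h3
    exact h3

theorem IsQ.add {h : ℝ} {g g' : ℍ → ℂ} (hg : IsQ h g) (hg' : IsQ h g') : IsQ h (g + g') := by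
  refine ⟨?_, hg.holo.add hg'.holo, ?_⟩
  · intro z
    have h1 := hg.per z
    have h2 := hg'.per z
    simp only [comp_apply, Pi.add_apply] at h1 h2 ⊢
    rw [h1, h2]
  · have h1 : Tendsto g atImInfty (𝓝 0) := hg.zero
    have h2 : Tendsto g' atImInfty (𝓝 0) := hg'.zero
    have := h1.add h2
    rw [add_zero] at this
    exact this

theorem IsQ.smul {h : ℝ} {g : ℍ → ℂ} (c : ℂ) (hg : IsQ h g) : IsQ h (c • g) := by
  refine ⟨?_, mdiff_of_isAnti ((isAnti_of_mdiff hg.holo).smul c), ?_⟩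
  · intro z
    have h1 := hg.per z
    simp only [comp_apply, Pi.smul_apply] at h1 ⊢
    rw [h1]
  · have h1 : Tendsto g atImInfty (𝓝 0) := hg.zero
    have := h1.const_mul c
    rw [mul_zero] at this
    exact this

theorem J_smul_smul (γ : SL(2, ℤ)) (z : ℍ) : J • (γ • z) = (jConjSL γ) • (J • z) := by
  ext
  rw [coe_J_smul, UpperHalfPlane.coe_specialLinearGroup_apply,
    UpperHalfPlane.coe_specialLinearGroup_apply, coe_J_smul]
  simp only [map_div₀, map_add, map_mul, algebraMap_int_eq, Int.coe_castRingHom,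
    Complex.conj_ofReal]
  have e00 : (jConjSL γ) 0 0 = γ 0 0 := by simp [jConjSL_coe]
  have e01 : (jConjSL γ) 0 1 = -γ 0 1 := by simp [jConjSL_coe]
  have e10 : (jConjSL γ) 1 0 = -γ 1 0 := by simp [jConjSL_coe]
  have e11 : (jConjSL γ) 1 1 = γ 1 1 := by simp [jConjSL_coe]
  rw [e00, e01, e10, e11]
  push_cast
  rw [neg_div']
  congr 1 <;> ring

variable {N : ℕ} [NeZero N]

theorem eq_zero_of_period_sign (f : CuspForm (Gamma0 N) 2) (s : ℝ) (hs : s ≠ 0)
    (h : ∀ γ ∈ Gamma0 N, symb γ ⇑f + s * symb (jConjSL γ) ⇑f = 0) : f = 0 := by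
  obtain ⟨M, hM, hq⟩ := exists_period N
  have hM' : (0 : ℝ) < M := by exact_mod_cast hM
  set F := prim ⇑f with hF
  have hanti : IsAnti ⇑f F := (good_cusp f).hasPrim.isPrim.deriv
  have hQ : ∀ δ : SL(2, ℤ), IsQ M (prim (⇑f ∣[(2 : ℤ)] δ)) := fun δ => (hq 2 f δ).isQ_prim hM'
  -- values of the two pieces
  have hcj : ∀ (δ : SL(2, ℤ)) (z : ℍ), cj F (δ • z) =
      cj (prim (⇑f ∣[(2 : ℤ)] (jConjSL δ))) z + conj (symb (jConjSL δ) ⇑f) := by
    intro δ z
    simp only [cj]
    rw [J_smul_smul, hF, prim_smul_eq, map_add]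
  have hs' : (s : ℂ) ≠ 0 := by exact_mod_cast hs
  have key1 : ⇑f + (s : ℂ) • (-(cj ⇑f)) = 0 := by
    refine anti_eq_zero_of_re_invariant hM (hanti.add (hanti.cj.smul (s : ℂ))) (fun δ => ?_)
      (fun γ hγ z => ?_) (N := N)
    · refine ⟨prim (⇑f ∣[(2 : ℤ)] δ) + (s : ℂ) • cj (prim (⇑f ∣[(2 : ℤ)] (jConjSL δ))),
        symb δ ⇑f + s * conj (symb (jConjSL δ) ⇑f), (hQ δ).add (((hQ _).cj).smul _), fun z => ?_⟩
      simp only [Pi.add_apply, Pi.smul_apply, smul_eq_mul]
      rw [hcj, hF, prim_smul_eq]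
      ring
    · simp only [Pi.add_apply, Pi.smul_apply, smul_eq_mul, cj]
      rw [J_smul_smul, hF, prim_smul_Gamma0 f hγ, prim_smul_Gamma0 f (jConjSL_mem_Gamma0 hγ)]
      have h1 := congrArg Complex.re (h γ hγ)
      simp only [Complex.add_re, Complex.re_ofReal_mul, Complex.conj_re, Complex.zero_re] at h1 ⊢
      linear_combination h1
  have key2 : (-Complex.I) • (⇑f + (-(s : ℂ)) • (-(cj ⇑f))) = 0 := by
    refine anti_eq_zero_of_re_invariant hM
      ((hanti.add (hanti.cj.smul (-(s : ℂ)))).smul (-Complex.I)) (fun δ => ?_)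
      (fun γ hγ z => ?_) (N := N)
    · refine ⟨(-Complex.I) • (prim (⇑f ∣[(2 : ℤ)] δ) + (-(s : ℂ)) •
          cj (prim (⇑f ∣[(2 : ℤ)] (jConjSL δ)))),
        (-Complex.I) * (symb δ ⇑f + (-(s : ℂ)) * conj (symb (jConjSL δ) ⇑f)),
        ((hQ δ).add (((hQ _).cj).smul _)).smul _, fun z => ?_⟩
      simp only [Pi.add_apply, Pi.smul_apply, smul_eq_mul]
      rw [hcj, hF, prim_smul_eq]
      ring
    · simp only [Pi.add_apply, Pi.smul_apply, smul_eq_mul, cj]
      rw [J_smul_smul, hF, prim_smul_Gamma0 f hγ, prim_smul_Gamma0 f (jConjSL_mem_Gamma0 hγ)]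
      have h1 := congrArg Complex.im (h γ hγ)
      simp only [Complex.add_im, Complex.im_ofReal_mul, Complex.zero_im] at h1
      simp only [Complex.mul_re, Complex.neg_re, Complex.I_re, Complex.neg_im, Complex.I_im,
        Complex.add_im, Complex.mul_im, Complex.conj_im, Complex.ofReal_im,
        Complex.ofReal_re]
      ring_nf
      linear_combination h1
  have hI : (-Complex.I) ≠ 0 := neg_ne_zero.mpr Complex.I_ne_zero
  have key2' : ⇑f + (-(s : ℂ)) • (-(cj ⇑f)) = 0 := (smul_eq_zero.mp key2).resolve_left hI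
  apply DFunLike.coe_injective
  funext z
  have e1 := congrFun key1 z
  have e2 := congrFun key2' z
  simp only [Pi.add_apply, Pi.smul_apply, Pi.neg_apply, smul_eq_mul, Pi.zero_apply] at e1 e2
  have : f z = 0 := by linear_combination (1 / 2 : ℂ) * e1 + (1 / 2 : ℂ) * e2
  simpa using this

theorem periodHomPair_injective : Function.Injective (periodHomPair N) := by
  rw [injective_iff_map_eq_zero]
  rintro ⟨f, g⟩ h
  rw [periodHomPair_apply] at h
  set ι := charInvolution N ℂ ℂ
  have hι : ∀ ψ, ι (ι ψ) = ψ := charInvolution_charInvolution N ℂ ℂ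
  have h' := congrArg ι h
  simp only [map_add, map_sub, hι, map_zero] at h'
  have h1 : periodLin N f + ι (periodLin N f) = 0 := by
    have : (2 : ℂ) • (periodLin N f + ι (periodLin N f)) = 0 := by
      rw [two_smul]
      have := congrArg₂ (· + ·) h h'
      simp only [add_zero] at this
      rw [← this]
      abel
    exact (smul_eq_zero.mp this).resolve_left two_ne_zero
  have h2 : periodLin N g - ι (periodLin N g) = 0 := by
    rw [h1, zero_add] at h
    exact h
  have hf : f = 0 := by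
    refine eq_zero_of_period_sign f 1 one_ne_zero fun γ hγ => ?_
    have := DFunLike.congr_fun h1 (Additive.ofMul ⟨γ, hγ⟩)
    rw [AddMonoidHom.add_apply, charInvolution_apply, periodLin_apply, periodLin_apply] at this
    simpa using this
  have hg : g = 0 := by
    refine eq_zero_of_period_sign g (-1) (by norm_num) fun γ hγ => ?_
    have := DFunLike.congr_fun h2 (Additive.ofMul ⟨γ, hγ⟩)
    rw [AddMonoidHom.sub_apply, charInvolution_apply, periodLin_apply, periodLin_apply] at this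
    simpa [sub_eq_add_neg] using this
  rw [hf, hg]
  rfl

end Fermat.Agent.EichlerShimura
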