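import Fermat.Agent.EichlerShimura.Lattice
import Fermat.Agent.EichlerShimura.Injective
import Fermat.Prelude.Sol.S_ModularForm_heckeT_slash_eq_self_of_mem_Gamma0

/-!
# Hecke operators on period functionals of `Γ₀(N)`, compatibly with the involution `j`
-/

set_option autoImplicit false

noncomputable section

namespace Fermat.Agent.EichlerShimura

open UpperHalfPlane hiding I
open Complex Filter Topology Function Metric Asymptotics
open scoped Real Manifold MatrixGroups ModularForm Pointwise ComplexConjugate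
open ModularCurve ModularCurve.Period CongruenceSubgroup ModularForm
open P2MW.S_ModularForm_heckeT_slash_eq_self_of_mem_Gamma0.ModularForm.HeckeSlashInvariance
open Matrix.SpecialLinearGroup

theorem good_sum_symb {ι : Type*} (s : Finset ι) (φ : ι → ℍ → ℂ) (h : ∀ i ∈ s, Good (φ i))
    (δ : SL(2, ℤ)) :
    Good (∑ i ∈ s, φ i) ∧ symb δ (∑ i ∈ s, φ i) = ∑ i ∈ s, symb δ (φ i) := by
  classical
  induction s using Finset.induction_on with
  | empty => simp only [Finset.sum_empty]; exact ⟨Good.zero, symb_zero δ⟩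
  | insert i s hi ih =>
    have h1 := h i (Finset.mem_insert_self i s)
    have h2 := ih fun j hj => h j (Finset.mem_insert_of_mem hj)
    rw [Finset.sum_insert hi, Finset.sum_insert hi]
    exact ⟨h1.add h2.1, by rw [symb_add h1 h2.1, h2.2]⟩

/-- integral upper triangular matrices of positive determinant -/
def IsUT (A : GL (Fin 2) ℝ) : Prop :=
  0 < A.det.val ∧ A 1 0 = 0 ∧
    ∃ M : Matrix (Fin 2) (Fin 2) ℤ, (A : Matrix (Fin 2) (Fin 2) ℝ) = M.map (Int.cast)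

theorem IsUT.good {A : GL (Fin 2) ℝ} (hA : IsUT A) {φ : ℍ → ℂ} (h : Good φ) :
    Good (φ ∣[(2 : ℤ)] A) :=
  h.slash_of_upper fun δ => exists_decomp hA.1 hA.2.2 δ

theorem hecke_symb_of {ι : Type*} [Fintype ι] {A : ι → GL (Fin 2) ℝ} (hA : ∀ i, IsUT (A i))
    {σ : ι → ι} {γ : SL(2, ℤ)} {γ' : ι → SL(2, ℤ)}
    (h : ∀ i, A i * (γ : GL (Fin 2) ℝ) = (γ' i : GL (Fin 2) ℝ) * A (σ i))
    {f : ℍ → ℂ} (hf : Good f) :
    symb γ (∑ i, f ∣[(2 : ℤ)] A i) = ∑ i, symb (γ' i) f := by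
  rw [(good_sum_symb Finset.univ _ (fun i _ => (hA i).good hf) γ).2]
  refine Finset.sum_congr rfl fun i _ => ?_
  exact symb_slash hf (hA i).1 (hA i).2.1 (hA (σ i)).1 (hA (σ i)).2.1 γ (γ' i) (h i)

theorem J_mul_J : (J * J : GL (Fin 2) ℝ) = 1 := by rw [← sq, J_sq]

theorem J_conj_val (A : GL (Fin 2) ℝ) :
    ((J * A * J : GL (Fin 2) ℝ) : Matrix (Fin 2) (Fin 2) ℝ) =
      !![A 0 0, -A 0 1; -A 1 0, A 1 1] := by
  ext i j
  fin_cases i <;> fin_cases j <;>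
    simp [Matrix.vecMul, dotProduct, Matrix.mul_apply, Fin.sum_univ_two]

theorem coe_jConjSL_GL (γ : SL(2, ℤ)) :
    ((jConjSL γ : SL(2, ℤ)) : GL (Fin 2) ℝ) = J * (γ : GL (Fin 2) ℝ) * J := by
  apply Units.ext
  rw [J_conj_val]
  ext i j
  fin_cases i <;> fin_cases j <;> simp [jConjSL_coe]

theorem IsUT.conj {A : GL (Fin 2) ℝ} (hA : IsUT A) : IsUT (J * A * J) := by
  obtain ⟨h1, h2, M, hM⟩ := hA
  refine ⟨?_, ?_, jConjMat M, ?_⟩
  · rw [map_mul, map_mul, det_J]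
    simpa using h1
  · rw [J_conj_val]
    simp [h2]
  · rw [J_conj_val, hM]
    ext i j
    fin_cases i <;> fin_cases j <;> simp [jConjMat]

theorem hecke_symb_conj {ι : Type*} [Fintype ι] {A : ι → GL (Fin 2) ℝ} (hA : ∀ i, IsUT (A i))
    {σ : ι → ι} {γ : SL(2, ℤ)} {γ' : ι → SL(2, ℤ)}
    (h : ∀ i, A i * (γ : GL (Fin 2) ℝ) = (γ' i : GL (Fin 2) ℝ) * A (σ i))
    {f : ℍ → ℂ} (hf : Good f) :
    symb (jConjSL γ) (∑ i, f ∣[(2 : ℤ)] (J * A i * J)) = ∑ i, symb (jConjSL (γ' i)) f := by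
  refine hecke_symb_of (A := fun i => J * A i * J) (fun i => (hA i).conj) (σ := σ) (fun i => ?_) hf
  rw [coe_jConjSL_GL, coe_jConjSL_GL]
  have h1 := h i
  calc J * A i * J * (J * (γ : GL (Fin 2) ℝ) * J) = J * (A i * (J * J) * (γ : GL (Fin 2) ℝ)) * J := by
        simp only [mul_assoc]
    _ = J * ((γ' i : GL (Fin 2) ℝ) * (J * J) * A (σ i)) * J := by
        rw [J_mul_J, mul_one, mul_one, h1]
    _ = _ := by simp only [mul_assoc]

theorem isUT_heckeMatrix {p : ℕ} (hp : p ≠ 0) (b : ℕ) : IsUT (heckeMatrix p b) := by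
  refine ⟨det_heckeMatrix_pos p b, by simp [hp], !![1, b; 0, p], ?_⟩
  rw [val_heckeMatrix hp]
  ext i j
  fin_cases i <;> fin_cases j <;> simp

theorem isUT_heckeDiag {p : ℕ} (hp : p ≠ 0) : IsUT (heckeDiagMatrix p) := by
  refine ⟨det_heckeDiagMatrix_pos p, by simp [hp], !![p, 0; 0, 1], ?_⟩
  rw [val_heckeDiagMatrix hp]
  ext i j
  fin_cases i <;> fin_cases j <;> simp

theorem J_heckeDiag_J {p : ℕ} (hp : p ≠ 0) : J * heckeDiagMatrix p * J = heckeDiagMatrix p := by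
  ext i j
  fin_cases i <;> fin_cases j <;>
    simp [hp, Matrix.mul_apply, Fin.sum_univ_two]

theorem J_heckeMatrix_J {p : ℕ} [NeZero p] (x : ZMod p) :
    ∃ k : ℤ, J * heckeMatrix p x.val * J =
      ((ModularGroup.T ^ k : SL(2, ℤ)) : GL (Fin 2) ℝ) * heckeMatrix p (-x).val := by
  have hp : p ≠ 0 := NeZero.ne p
  obtain ⟨m, hm⟩ : (p : ℤ) ∣ x.val + (-x).val := by
    rw [← ZMod.intCast_zmod_eq_zero_iff_dvd]
    push_cast
    rw [ZMod.natCast_zmod_val, ZMod.natCast_zmod_val, add_neg_cancel]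
  refine ⟨-m, ?_⟩
  have hm' : (x.val : ℝ) + ((-x).val : ℝ) = p * m := by exact_mod_cast hm
  have hT : ((ModularGroup.T ^ (-m) : SL(2, ℤ)) : Matrix (Fin 2) (Fin 2) ℤ) = !![1, -m; 0, 1] :=
    ModularGroup.coe_T_zpow (-m)
  generalize (ModularGroup.T ^ (-m) : SL(2, ℤ)) = g at hT ⊢
  apply Units.ext
  rw [J_conj_val, val_heckeMatrix hp, Units.val_mul, val_heckeMatrix hp]
  ext i j
  fin_cases i <;> fin_cases j <;>
    simp [Matrix.mul_apply, Fin.sum_univ_two, hT]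
  have h1 : ((x.val : ℕ) : ℝ) = x.cast := by rw [ZMod.natCast_val]
  have h2 : (((-x).val : ℕ) : ℝ) = (-x).cast := by rw [ZMod.natCast_val]
  rw [h1, h2] at hm'
  linarith

variable {N : ℕ} [NeZero N]

omit [NeZero N] in
theorem slash_T_zpow (f : CuspForm (Gamma0 N) 2) (k : ℤ) :
    ⇑f ∣[(2 : ℤ)] ((ModularGroup.T ^ k : SL(2, ℤ)) : GL (Fin 2) ℝ) = ⇑f := by
  have h : (ModularGroup.T ^ k : SL(2, ℤ)) ∈ Gamma0 N := by
    refine zpow_mem ?_ k
    rw [Gamma0_mem]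
    simp [ModularGroup.T]
  exact slash_Gamma0 f h

omit [NeZero N] in
theorem sum_conj_heckeMatrix {p : ℕ} [NeZero p] (f : CuspForm (Gamma0 N) 2) :
    ∑ x : ZMod p, ⇑f ∣[(2 : ℤ)] (J * heckeMatrix p x.val * J) =
      ∑ x : ZMod p, ⇑f ∣[(2 : ℤ)] heckeMatrix p x.val := by
  rw [← Equiv.sum_comp (Equiv.neg (ZMod p)) (fun x => ⇑f ∣[(2 : ℤ)] heckeMatrix p x.val)]
  refine Finset.sum_congr rfl fun x _ => ?_
  obtain ⟨k, hk⟩ := J_heckeMatrix_J x
  rw [hk, SlashAction.slash_mul, slash_T_zpow]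
  rfl

/-- Hecke operators away from the level on period functionals. -/
theorem exists_symb_heckeT {p : ℕ} (hp : p.Prime) (hpN : ¬ p ∣ N) (γ : Gamma0 N) :
    ∃ γ' : OnePoint (ZMod p) → Gamma0 N, ∀ f : CuspForm (Gamma0 N) 2,
      symb (γ : SL(2, ℤ)) (heckeT 2 p ⇑f) =
        ∑ᶠ x, symb (γ' x : SL(2, ℤ)) ⇑f ∧
      symb (jConjSL γ) (heckeT 2 p ⇑f) = ∑ᶠ x, symb (jConjSL (γ' x)) ⇑f := by
  have : Fact p.Prime := ⟨hp⟩
  have hN : (N : ℤ) ∣ (γ : SL(2, ℤ)) 1 0 :=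
    (ZMod.intCast_zmod_eq_zero_iff_dvd _ _).mp (Gamma0_mem.mp γ.2)
  choose g hg hmul using heckeRep_mul (p := p) hpN (γ : SL(2, ℤ)) hN
  refine ⟨fun x => ⟨g x, Gamma0_mem.mpr ((ZMod.intCast_zmod_eq_zero_iff_dvd _ _).mpr (hg x))⟩,
    fun f => ?_⟩
  have hUT : ∀ x : OnePoint (ZMod p), IsUT (heckeRep p x) := by
    intro x
    induction x using OnePoint.rec with
    | infty => exact isUT_heckeDiag hp.ne_zero
    | coe x => exact isUT_heckeMatrix hp.ne_zero x.val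
  rw [finsum_eq_sum_of_fintype, finsum_eq_sum_of_fintype]
  constructor
  · rw [heckeT_eq_sum_onePoint]
    exact hecke_symb_of hUT hmul (good_cusp f)
  · have h1 : heckeT 2 p ⇑f = ∑ x : OnePoint (ZMod p), ⇑f ∣[(2 : ℤ)] (J * heckeRep p x * J) := by
      rw [heckeT_eq_heckeU_add, heckeU_eq_sum_zmod, add_comm, ← sum_conj_heckeMatrix]
      have := (Fintype.sum_option (fun x : OnePoint (ZMod p) ↦ ⇑f ∣[(2 : ℤ)] (J * heckeRep p x * J))).symm
      refine Eq.trans ?_ this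
      congr 1
      change _ = ⇑f ∣[(2 : ℤ)] (J * heckeDiagMatrix p * J)
      rw [J_heckeDiag_J hp.ne_zero]
    rw [h1]
    exact hecke_symb_conj hUT hmul (good_cusp f)

/-- Hecke operators dividing the level on period functionals. -/
theorem exists_symb_heckeU {p : ℕ} (hp : p.Prime) (hpN : p ∣ N) (γ : Gamma0 N) :
    ∃ γ' : ZMod p → Gamma0 N, ∀ f : CuspForm (Gamma0 N) 2,
      symb (γ : SL(2, ℤ)) (heckeU 2 p ⇑f) =
        ∑ᶠ x, symb (γ' x : SL(2, ℤ)) ⇑f ∧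
      symb (jConjSL γ) (heckeU 2 p ⇑f) = ∑ᶠ x, symb (jConjSL (γ' x)) ⇑f := by
  have : Fact p.Prime := ⟨hp⟩
  have : NeZero p := ⟨hp.ne_zero⟩
  have hN : (N : ℤ) ∣ (γ : SL(2, ℤ)) 1 0 :=
    (ZMod.intCast_zmod_eq_zero_iff_dvd _ _).mp (Gamma0_mem.mp γ.2)
  have hc : (p : ℤ) ∣ (γ : SL(2, ℤ)) 1 0 := (Int.natCast_dvd_natCast.mpr hpN).trans hN
  choose g hg hmul using heckeMatrix_mul_of_dvd (p := p) (γ : SL(2, ℤ)) hc
  refine ⟨fun x => ⟨g x, by
    rw [Gamma0_mem, hg]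
    push_cast
    rw [Gamma0_mem.mp γ.2, mul_zero]⟩, fun f => ?_⟩
  have hUT : ∀ x : ZMod p, IsUT (heckeMatrix p x.val) := fun x =>
    isUT_heckeMatrix hp.ne_zero x.val
  rw [finsum_eq_sum_of_fintype, finsum_eq_sum_of_fintype]
  constructor
  · rw [heckeU_eq_sum_zmod]
    exact hecke_symb_of hUT hmul (good_cusp f)
  · rw [heckeU_eq_sum_zmod, ← sum_conj_heckeMatrix]
    exact hecke_symb_conj hUT hmul (good_cusp f)

end Fermat.Agent.EichlerShimura
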