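import Fermat.Agent.EichlerShimura.ParDim
import Fermat.Agent.EichlerShimura.Injective

/-!
# The period pair map is onto the parabolic homomorphisms, given the dimension formula
-/

set_option autoImplicit false

noncomputable section

namespace Fermat.Agent.EichlerShimura

open Module CongruenceSubgroup ModularCurve.Period ModularCurve
open scoped MatrixGroups

variable {N : ℕ} [NeZero N]

/-- The period pair map with values in parabolic homomorphisms. -/
def pairPar (N : ℕ) [NeZero N] : (CuspForm (Gamma0 N) 2 × CuspForm (Gamma0 N) 2) →ₗ[ℂ]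
    parabolicHoms ℂ (Gamma0 N) ℂ :=
  LinearMap.codRestrict _ (periodHomPair N) fun x =>
    range_periodHomPair_le (LinearMap.mem_range_self _ x)

theorem pairPar_injective : Function.Injective (pairPar N) := by
  intro x y h
  exact periodHomPair_injective (congrArg Subtype.val h)

instance finiteDimensional_cuspForm_two : FiniteDimensional ℂ (CuspForm (Gamma0 N) 2) := by
  refine FiniteDimensional.of_injective (pairPar N ∘ₗ LinearMap.inl ℂ _ _) ?_
  exact pairPar_injective.comp LinearMap.inl_injective

theorem two_mul_finrank_le : 2 * finrank ℂ (CuspForm (Gamma0 N) 2) ≤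
    finrank ℂ (parabolicHoms ℂ (Gamma0 N) ℂ) := by
  have := LinearMap.finrank_le_finrank_of_injective (pairPar_injective (N := N))
  rwa [finrank_prod, ← two_mul] at this

/-- S21, given the dimension formula for `S_2(Γ₀(N))`. -/
theorem eichlerShimura_of_dim
    (h : (finrank ℂ (CuspForm (Gamma0 N) 2) : ℚ) = genusFormula N) :
    Function.Injective (ModularCurve.periodHomPair N)
      ∧ LinearMap.range (ModularCurve.periodHomPair N)
          = ModularCurve.Period.parabolicHoms ℂ (CongruenceSubgroup.Gamma0 N) ℂ := by
  refine ⟨periodHomPair_injective, ?_⟩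
  have h1 := finrank_parabolicHoms_le (N := N)
  have h2 : finrank ℂ (parabolicHoms ℂ (Gamma0 N) ℂ) ≤ 2 * finrank ℂ (CuspForm (Gamma0 N) 2) := by
    have : (finrank ℂ (parabolicHoms ℂ (Gamma0 N) ℂ) : ℚ) ≤
      2 * finrank ℂ (CuspForm (Gamma0 N) 2) := by rw [h]; exact h1
    exact_mod_cast this
  apply Submodule.eq_of_le_of_finrank_le (range_periodHomPair_le (N := N))
  rw [LinearMap.finrank_range_of_inj (periodHomPair_injective (N := N)), finrank_prod, ← two_mul]
  exact h2

end Fermat.Agent.EichlerShimura
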