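import Fermat.Agent.EichlerShimura.PrimPow

set_option autoImplicit false

noncomputable section

namespace Fermat.Agent.EichlerShimura

open UpperHalfPlane hiding I
open Complex Filter Topology Function Metric Asymptotics
open scoped Real Manifold MatrixGroups ModularForm

/-- weight two functions all of whose `SL₂(ℤ)`-translates have primitives. -/
def Good (φ : ℍ → ℂ) : Prop := ∀ δ : SL(2, ℤ), HasPrim (φ ∣[(2 : ℤ)] δ)

theorem Good.hasPrim {φ : ℍ → ℂ} (h : Good φ) : HasPrim φ := by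
  simpa using h 1

theorem Good.slash {φ : ℍ → ℂ} (h : Good φ) (δ : SL(2, ℤ)) : Good (φ ∣[(2 : ℤ)] δ) := by
  intro δ'
  rw [← SlashAction.slash_mul]
  exact h _

theorem Good.add {φ ψ : ℍ → ℂ} (h : Good φ) (h' : Good ψ) : Good (φ + ψ) := by
  intro δ
  rw [SlashAction.add_slash]
  exact (h δ).add (h' δ)

theorem Good.smul {φ : ℍ → ℂ} (c : ℂ) (h : Good φ) : Good (c • φ) := by
  intro δ
  rw [ModularForm.SL_smul_slash]
  exact (h δ).smul c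

theorem Good.zero : Good (0 : ℍ → ℂ) := by
  intro δ
  rw [SlashAction.zero_slash]
  exact HasPrim.zero

/-- The symbol `∫_∞^{δ∞} φ`. -/
def symb (δ : SL(2, ℤ)) (φ : ℍ → ℂ) : ℂ :=
  prim φ (δ • UpperHalfPlane.I) - prim (φ ∣[(2 : ℤ)] δ) UpperHalfPlane.I

theorem det_coe_pos (δ : SL(2, ℤ)) : 0 < ((δ : GL (Fin 2) ℝ)).det.val := by
  simp

theorem Good.sub_eq_symb {φ : ℍ → ℂ} (h : Good φ) (δ : SL(2, ℤ)) (z : ℍ) :
    prim φ (δ • z) - prim (φ ∣[(2 : ℤ)] δ) z = symb δ φ := by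
  have h1 : IsAnti (φ ∣[(2 : ℤ)] (δ : GL (Fin 2) ℝ)) (fun z => prim φ ((δ : GL (Fin 2) ℝ) • z)) :=
    h.hasPrim.isPrim.deriv.comp_smul (det_coe_pos δ)
  exact h1.sub_const (h δ).isPrim.deriv z UpperHalfPlane.I

theorem symb_mul {φ : ℍ → ℂ} (h : Good φ) (δ δ' : SL(2, ℤ)) :
    symb (δ * δ') φ = symb δ φ + symb δ' (φ ∣[(2 : ℤ)] δ) := by
  rw [← h.sub_eq_symb δ (δ' • UpperHalfPlane.I), symb, symb, SlashAction.slash_mul, mul_smul]
  ring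

theorem symb_one (φ : ℍ → ℂ) : symb 1 φ = 0 := by
  simp [symb]

theorem symb_add {φ ψ : ℍ → ℂ} (h : Good φ) (h' : Good ψ) (δ : SL(2, ℤ)) :
    symb δ (φ + ψ) = symb δ φ + symb δ ψ := by
  simp only [symb]
  rw [SlashAction.add_slash, prim_add h.hasPrim h'.hasPrim, prim_add (h δ) (h' δ)]
  simp only [Pi.add_apply]
  ring

theorem symb_smul {φ : ℍ → ℂ} (c : ℂ) (h : Good φ) (δ : SL(2, ℤ)) :
    symb δ (c • φ) = c * symb δ φ := by
  simp only [symb]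
  rw [ModularForm.SL_smul_slash, prim_smul c h.hasPrim, prim_smul c (h δ)]
  simp only [Pi.smul_apply, smul_eq_mul]
  ring

theorem symb_zero (δ : SL(2, ℤ)) : symb δ 0 = 0 := by
  simp [symb, prim_zero]

theorem prim_slash {φ : ℍ → ℂ} (h : HasPrim φ) {A : GL (Fin 2) ℝ} (hA : 0 < A.det.val)
    (hA0 : A 1 0 = 0) : prim (φ ∣[(2 : ℤ)] A) = fun z => prim φ (A • z) :=
  (h.isPrim.comp_smul hA hA0).prim_eq

theorem symb_slash {φ : ℍ → ℂ} (h : Good φ) {A B : GL (Fin 2) ℝ} (hA : 0 < A.det.val)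
    (hA0 : A 1 0 = 0) (hB : 0 < B.det.val) (hB0 : B 1 0 = 0) (δ δ' : SL(2, ℤ))
    (hAB : A * (δ : GL (Fin 2) ℝ) = (δ' : GL (Fin 2) ℝ) * B) :
    symb δ (φ ∣[(2 : ℤ)] A) = symb δ' φ := by
  have e1 : (φ ∣[(2 : ℤ)] A) ∣[(2 : ℤ)] δ = (φ ∣[(2 : ℤ)] δ') ∣[(2 : ℤ)] B := by
    rw [ModularForm.SL_slash, ModularForm.SL_slash, ← SlashAction.slash_mul,
      ← SlashAction.slash_mul, hAB]
  rw [symb, e1, prim_slash h.hasPrim hA hA0, prim_slash (h δ') hB hB0]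
  rw [← h.sub_eq_symb δ' (B • UpperHalfPlane.I)]
  have : A • (δ • UpperHalfPlane.I) = δ' • (B • UpperHalfPlane.I) := by
    have e2 : A • (δ • UpperHalfPlane.I) = (A * (δ : GL (Fin 2) ℝ)) • UpperHalfPlane.I := by
      rw [mul_smul]; rfl
    rw [e2, hAB, mul_smul]
    rfl
  simp only [this]

theorem Good.slash_of_upper {φ : ℍ → ℂ} (h : Good φ) {A : GL (Fin 2) ℝ}
    (H : ∀ δ : SL(2, ℤ), ∃ (δ' : SL(2, ℤ)) (B : GL (Fin 2) ℝ), 0 < B.det.val ∧ B 1 0 = 0 ∧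
      A * (δ : GL (Fin 2) ℝ) = (δ' : GL (Fin 2) ℝ) * B) : Good (φ ∣[(2 : ℤ)] A) := by
  intro δ
  obtain ⟨δ', B, hB, hB0, hAB⟩ := H δ
  have e1 : (φ ∣[(2 : ℤ)] A) ∣[(2 : ℤ)] δ = (φ ∣[(2 : ℤ)] δ') ∣[(2 : ℤ)] B := by
    rw [ModularForm.SL_slash, ModularForm.SL_slash, ← SlashAction.slash_mul,
      ← SlashAction.slash_mul, hAB]
  rw [e1]
  exact ((h δ').isPrim.comp_smul hB hB0).hasPrim

/-- decomposition `A δ = δ' B` with `B` upper triangular, for an integral matrix `A`. -/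
theorem exists_decomp {A : GL (Fin 2) ℝ} (hA : 0 < A.det.val)
    (hint : ∃ M : Matrix (Fin 2) (Fin 2) ℤ, (A : Matrix (Fin 2) (Fin 2) ℝ) = M.map (Int.cast))
    (δ : SL(2, ℤ)) : ∃ (δ' : SL(2, ℤ)) (B : GL (Fin 2) ℝ), 0 < B.det.val ∧ B 1 0 = 0 ∧
      A * (δ : GL (Fin 2) ℝ) = (δ' : GL (Fin 2) ℝ) * B := by
  obtain ⟨M, hM⟩ := hint
  set x : ℤ := (M * (δ : Matrix (Fin 2) (Fin 2) ℤ)) 0 0 with hx
  set y : ℤ := (M * (δ : Matrix (Fin 2) (Fin 2) ℤ)) 1 0 with hy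
  have hdetA : A.det.val = (M.det : ℝ) := by
    rw [Matrix.GeneralLinearGroup.val_det_apply, hM]
    simp [Matrix.det_fin_two]
  have hxy : ¬ (x = 0 ∧ y = 0) := by
    rintro ⟨h1, h2⟩
    have h3 : (M * (δ : Matrix (Fin 2) (Fin 2) ℤ)).det = 0 := by
      rw [Matrix.det_fin_two, ← hx, ← hy, h1, h2]; ring
    rw [Matrix.det_mul, δ.det_coe, mul_one] at h3
    rw [hdetA, h3] at hA
    simp at hA
  obtain ⟨g, x', y', hg, hcop, hx', hy'⟩ : ∃ g x' y' : ℤ, g ≠ 0 ∧ IsCoprime x' y' ∧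
      x = x' * g ∧ y = y' * g := by
    have hgcd : 0 < Int.gcd x y := Int.gcd_pos_iff.mpr (by tauto)
    obtain ⟨x', y', hc, h1, h2⟩ := Int.exists_gcd_one hgcd
    exact ⟨Int.gcd x y, x', y', by exact_mod_cast hgcd.ne', Int.isCoprime_iff_gcd_eq_one.mpr hc, h1, h2⟩
  obtain ⟨δ', h0, h1⟩ := hcop.exists_SL2_col 0
  refine ⟨δ', (δ' : GL (Fin 2) ℝ)⁻¹ * (A * (δ : GL (Fin 2) ℝ)), ?_, ?_, by group⟩
  · simp only [map_mul, map_inv, Units.val_mul]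
    simpa using hA
  · have e1 : ((δ' : GL (Fin 2) ℝ)⁻¹ : GL (Fin 2) ℝ) = ((δ'⁻¹ : SL(2, ℤ)) : GL (Fin 2) ℝ) := by
      simp
    rw [e1]
    have e2 : (((δ'⁻¹ : SL(2, ℤ)) : GL (Fin 2) ℝ) * (A * (δ : GL (Fin 2) ℝ)) :
        GL (Fin 2) ℝ).val =
        (((δ'⁻¹ : SL(2, ℤ)) : Matrix (Fin 2) (Fin 2) ℤ) * (M * (δ : Matrix (Fin 2) (Fin 2) ℤ))).map
          (Int.cast : ℤ → ℝ) := by
      rw [Units.val_mul, Units.val_mul, hM]
      simp only [Matrix.map_mul_intCast]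
      rfl
    have e3 : (((δ'⁻¹ : SL(2, ℤ)) : Matrix (Fin 2) (Fin 2) ℤ) *
        (M * (δ : Matrix (Fin 2) (Fin 2) ℤ))) 1 0 = 0 := by
      rw [Matrix.mul_apply, Fin.sum_univ_two, ← hx, ← hy, Matrix.SpecialLinearGroup.SL2_inv_expl]
      simp only [Matrix.cons_val_zero, Matrix.cons_val_one, Matrix.cons_val',
        Matrix.cons_val_fin_one]
      rw [hx', hy', h0, h1]
      ring
    have e4 := congrFun (congrFun (congrArg (fun X => X) e2) 1) 0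
    simp only [Matrix.map_apply, e3, Int.cast_zero] at e4
    exact e4

end Fermat.Agent.EichlerShimura
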