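import Fermat.Agent.EichlerShimura.HeckeSign
import Fermat.Agent.EichlerShimura.DimCount
import Fermat.Agent.HeckeDual.Integral

/-!
# The sign lattices of period functionals and the integral structure on `S₂(Γ₀(N))`
-/

set_option autoImplicit false

noncomputable section

namespace Fermat.Agent.EichlerShimura

open UpperHalfPlane hiding I
open scoped MatrixGroups ModularForm Pointwise
open ModularCurve ModularCurve.Period CongruenceSubgroup ModularForm Module

variable (N : ℕ) [NeZero N]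

/-- the period functional attached to an element of `Γ₀(N)` -/
def ell : Additive (Gamma0 N) →+ Dual ℂ (CuspForm (Gamma0 N) 2) where
  toFun γ :=
    { toFun := fun f => periodLin N f γ
      map_add' := fun f g => by rw [map_add]; rfl
      map_smul' := fun c f => by rw [map_smul]; rfl }
  map_zero' := by
    ext f
    exact map_zero (periodLin N f)
  map_add' γ δ := by
    ext f
    exact map_add (periodLin N f) γ δ

variable {N}

theorem ell_apply (γ : Additive (Gamma0 N)) (f : CuspForm (Gamma0 N) 2) :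
    ell N γ f = symb ((Additive.toMul γ : Gamma0 N) : SL(2, ℤ)) ⇑f := periodLin_apply f γ

variable (N) in
/-- sign-symmetrised period functionals -/
def ellS (s : ℤ) : Additive (Gamma0 N) →+ Dual ℂ (CuspForm (Gamma0 N) 2) :=
  ell N + s • (ell N).comp (MonoidHom.toAdditive (jConjGamma0 N))

theorem ellS_apply (s : ℤ) (γ : Additive (Gamma0 N)) (f : CuspForm (Gamma0 N) 2) :
    ellS N s γ f = symb ((Additive.toMul γ : Gamma0 N) : SL(2, ℤ)) ⇑f +
      s * symb (jConjSL ((Additive.toMul γ : Gamma0 N) : SL(2, ℤ))) ⇑f := by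
  rw [ellS, AddMonoidHom.add_apply, LinearMap.add_apply, ell_apply, AddMonoidHom.smul_apply,
    LinearMap.smul_apply, AddMonoidHom.comp_apply, ell_apply, zsmul_eq_mul]
  rfl

theorem ellS_jConj {s : ℤ} (hs : s * s = 1) (γ : Gamma0 N) :
    ellS N s (Additive.ofMul (jConjGamma0 N γ)) = s • ellS N s (Additive.ofMul γ) := by
  ext f
  rw [LinearMap.smul_apply, ellS_apply, ellS_apply]
  simp only [toMul_ofMul, jConjGamma0_coe, jConjSL_jConjSL, zsmul_eq_mul]
  have : (s : ℂ) * s = 1 := by exact_mod_cast hs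
  linear_combination (-(symb (jConjSL (γ : SL(2, ℤ))) ⇑f)) * this

theorem ellS_parabolic (s : ℤ) (γ : Gamma0 N)
    (hγ : ((γ : SL(2, ℤ)) : Matrix (Fin 2) (Fin 2) ℤ).trace ^ 2 = 4) :
    ellS N s (Additive.ofMul γ) = 0 := by
  ext f
  rw [ellS_apply, LinearMap.zero_apply]
  have h1 := symb_parabolic f γ.2 hγ
  have h2 : symb (jConjSL (γ : SL(2, ℤ))) ⇑f = 0 := by
    refine symb_parabolic f (jConjSL_mem_Gamma0 γ.2) ?_
    rw [jConjSL_coe, jConjMat_trace]
    exact hγ
  simp only [toMul_ofMul]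
  rw [h1, h2]
  simp

variable (N) in
/-- the lattice of sign-symmetrised period functionals -/
def LS (s : ℤ) : Submodule ℤ (Dual ℂ (CuspForm (Gamma0 N) 2)) :=
  AddSubgroup.toIntSubmodule (ellS N s).range

theorem ellS_mem (s : ℤ) (γ : Additive (Gamma0 N)) : ellS N s γ ∈ LS N s := ⟨γ, rfl⟩

instance fg_SL2Z : Group.FG SL(2, ℤ) :=
  ⟨⟨{ModularGroup.S, ModularGroup.T}, by
    have := SpecialLinearGroup.SL2Z_generators
    rw [← this]
    congr 1
    ext x
    simp⟩⟩

instance finite_LS (s : ℤ) : Module.Finite ℤ (LS N s) := by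
  have : Group.FG (Gamma0 N) := inferInstance
  have : AddGroup.FG (Additive (Gamma0 N)) := inferInstance
  have : AddGroup.FG (ellS N s).range := AddGroup.fg_range (ellS N s)
  exact Module.Finite.iff_addGroup_fg.2 this

instance free_LS (s : ℤ) : Module.Free ℤ (LS N s) := by
  have : IsAddTorsionFree (Dual ℂ (CuspForm (Gamma0 N) 2)) := by
    have : Module ℚ (Dual ℂ (CuspForm (Gamma0 N) 2)) := Module.compHom _ (algebraMap ℚ ℂ)
    exact .of_module_rat _
  infer_instance

theorem span_LS (s : ℤ) (hs : s ≠ 0) :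
    Submodule.span ℂ (LS N s : Set (Dual ℂ (CuspForm (Gamma0 N) 2))) = ⊤ := by
  set Φ := Submodule.span ℂ (LS N s : Set (Dual ℂ (CuspForm (Gamma0 N) 2))) with hΦ
  have h0 : Φ.dualCoannihilator = ⊥ := by
    rw [eq_bot_iff]
    intro f hf
    rw [Submodule.mem_dualCoannihilator] at hf
    rw [Submodule.mem_bot]
    refine eq_zero_of_period_sign f (s : ℝ) (by exact_mod_cast hs) fun γ hγ => ?_
    have := hf _ (Submodule.subset_span (ellS_mem (N := N) s (Additive.ofMul ⟨γ, hγ⟩)))
    rw [ellS_apply] at this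
    simpa using this
  have h1 := Subspace.finrank_add_finrank_dualCoannihilator_eq Φ
  rw [h0, finrank_bot, add_zero] at h1
  exact Submodule.eq_top_of_finrank_eq (h1.trans Subspace.dual_finrank_eq.symm)

theorem comp_mem_LS_of_gen (s : ℤ) {t : Module.End ℂ (CuspForm (Gamma0 N) 2)}
    (ht : t ∈ CuspForm.heckeGenerators N 2 ∅) {l : Dual ℂ (CuspForm (Gamma0 N) 2)}
    (hl : l ∈ LS N s) : l ∘ₗ t ∈ LS N s := by
  obtain ⟨γ, rfl⟩ := hl
  rcases ht with ⟨p, hp, hpN, -, rfl⟩ | ⟨p, hpN, hp, -, rfl⟩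
  · obtain ⟨γ', h⟩ := exists_symb_heckeT hp hpN (Additive.toMul γ)
    have : Fact p.Prime := ⟨hp⟩
    have : ellS N s γ ∘ₗ CuspForm.heckeTLin 2 hp hpN =
        ∑ x, ellS N s (Additive.ofMul (γ' x)) := by
      ext f
      rw [LinearMap.comp_apply, ellS_apply, CuspForm.coe_heckeTLin_apply, (h f).1, (h f).2,
        finsum_eq_sum_of_fintype, finsum_eq_sum_of_fintype, LinearMap.sum_apply, Finset.mul_sum,
        ← Finset.sum_add_distrib]
      refine Finset.sum_congr rfl fun x _ => ?_
      rw [ellS_apply]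
      rfl
    rw [this]
    exact Submodule.sum_mem _ fun x _ => ellS_mem s _
  · obtain ⟨γ', h⟩ := exists_symb_heckeU hp hpN (Additive.toMul γ)
    have : Fact p.Prime := ⟨hp⟩
    have : ellS N s γ ∘ₗ CuspForm.heckeULin 2 hpN =
        ∑ x, ellS N s (Additive.ofMul (γ' x)) := by
      ext f
      rw [LinearMap.comp_apply, ellS_apply, CuspForm.coe_heckeULin_apply, (h f).1, (h f).2,
        finsum_eq_sum_of_fintype, finsum_eq_sum_of_fintype, LinearMap.sum_apply, Finset.mul_sum,
        ← Finset.sum_add_distrib]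
      refine Finset.sum_congr rfl fun x _ => ?_
      rw [ellS_apply]
      rfl
    rw [this]
    exact Submodule.sum_mem _ fun x _ => ellS_mem s _

theorem comp_mem_LS (s : ℤ) {t : Module.End ℂ (CuspForm (Gamma0 N) 2)}
    (ht : t ∈ CuspForm.heckeAlgebra N 2 ∅) {l : Dual ℂ (CuspForm (Gamma0 N) 2)}
    (hl : l ∈ LS N s) : l ∘ₗ t ∈ LS N s := by
  induction ht using Algebra.adjoin_induction generalizing l with
  | mem x hx => exact comp_mem_LS_of_gen s hx hl
  | algebraMap r =>
    have : l ∘ₗ (algebraMap ℤ (Module.End ℂ (CuspForm (Gamma0 N) 2)) r) = r • l := by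
      ext f
      simp
    rw [this]
    exact Submodule.smul_mem _ _ hl
  | add x y _ _ hx hy => rw [LinearMap.comp_add]; exact add_mem (hx hl) (hy hl)
  | mul x y _ _ hx hy =>
    have : l ∘ₗ (x * y) = (l ∘ₗ x) ∘ₗ y := rfl
    rw [this]
    exact hy (hx hl)

/-! ### Rank count -/

section Rank

variable {s : ℤ} {ι : Type*} [Fintype ι] (b : Basis ι ℤ (LS N s))

/-- the homomorphism attached to a family of coefficients -/
def cHom (a : ι → ℂ) : Additive (Gamma0 N) →+ ℂ where
  toFun γ := ∑ i, a i * (b.repr ⟨ellS N s γ, ellS_mem s γ⟩ i : ℤ)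
  map_zero' := by
    have : (⟨ellS N s 0, ellS_mem s 0⟩ : LS N s) = 0 := Subtype.ext (map_zero _)
    rw [this]; simp
  map_add' γ δ := by
    have : (⟨ellS N s (γ + δ), ellS_mem s (γ + δ)⟩ : LS N s) =
      ⟨ellS N s γ, ellS_mem s γ⟩ + ⟨ellS N s δ, ellS_mem s δ⟩ := Subtype.ext (map_add _ _ _)
    rw [this, ← Finset.sum_add_distrib]
    refine Finset.sum_congr rfl fun i _ => ?_
    rw [map_add, Finsupp.add_apply]
    push_cast
    ring

theorem cHom_apply (a : ι → ℂ) (γ : Additive (Gamma0 N)) :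
    cHom b a γ = ∑ i, a i * (b.repr ⟨ellS N s γ, ellS_mem s γ⟩ i : ℤ) := rfl

theorem cHom_mem (a : ι → ℂ) : cHom b a ∈ parabolicHoms ℂ (Gamma0 N) ℂ := by
  rw [mem_parabolicHoms_iff]
  intro γ hγ
  have : (⟨ellS N s (Additive.ofMul γ), ellS_mem s _⟩ : LS N s) = 0 :=
    Subtype.ext (ellS_parabolic s γ hγ)
  rw [cHom_apply, this]
  simp

theorem cHom_jConj (hs : s * s = 1) (a : ι → ℂ) (γ : Gamma0 N) :
    cHom b a (Additive.ofMul (jConjGamma0 N γ)) = s * cHom b a (Additive.ofMul γ) := by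
  have : (⟨ellS N s (Additive.ofMul (jConjGamma0 N γ)), ellS_mem s _⟩ : LS N s) =
      s • ⟨ellS N s (Additive.ofMul γ), ellS_mem s _⟩ := Subtype.ext (ellS_jConj hs γ)
  rw [cHom_apply, cHom_apply, this, Finset.mul_sum]
  refine Finset.sum_congr rfl fun i _ => ?_
  rw [map_smul, Finsupp.smul_apply, smul_eq_mul]
  push_cast
  ring

theorem cHom_eq_zero {a : ι → ℂ} (h : ∀ γ, cHom b a γ = 0) : a = 0 := by
  classical
  ext i
  obtain ⟨γ, hγ⟩ := (b i).2
  have h1 := h γ
  have : (⟨ellS N s γ, ellS_mem s γ⟩ : LS N s) = b i := Subtype.ext hγ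
  rw [cHom_apply, this, Basis.repr_self] at h1
  simpa [Finsupp.single_apply] using h1

end Rank

theorem card_add_card_le {ι₁ ι₂ : Type*} [Fintype ι₁] [Fintype ι₂] (b₁ : Basis ι₁ ℤ (LS N 1))
    (b₂ : Basis ι₂ ℤ (LS N (-1))) :
    Fintype.card ι₁ + Fintype.card ι₂ ≤ finrank ℂ (parabolicHoms ℂ (Gamma0 N) ℂ) := by
  let Θ : ((ι₁ → ℂ) × (ι₂ → ℂ)) →ₗ[ℂ] parabolicHoms ℂ (Gamma0 N) ℂ :=
    { toFun := fun p => ⟨cHom b₁ p.1 + cHom b₂ p.2, add_mem (cHom_mem b₁ p.1) (cHom_mem b₂ p.2)⟩
      map_add' := fun p q => by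
        apply Subtype.ext
        refine AddMonoidHom.ext fun γ => ?_
        simp only [Submodule.coe_add, AddMonoidHom.add_apply, cHom_apply, Prod.fst_add,
          Prod.snd_add, Pi.add_apply, add_mul, Finset.sum_add_distrib]
        ring
      map_smul' := fun c p => by
        apply Subtype.ext
        refine AddMonoidHom.ext fun γ => ?_
        simp only [Submodule.coe_smul, AddMonoidHom.add_apply, AddMonoidHom.smul_apply, cHom_apply,
          Prod.smul_fst, Prod.smul_snd, Pi.smul_apply, smul_eq_mul, RingHom.id_apply, mul_add,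
          Finset.mul_sum, mul_assoc] }
  have hΘ : Function.Injective Θ := by
    rw [injective_iff_map_eq_zero]
    rintro ⟨a, c⟩ h
    have h1 : ∀ γ : Gamma0 N, cHom b₁ a (Additive.ofMul γ) + cHom b₂ c (Additive.ofMul γ) = 0 :=
      fun γ => DFunLike.congr_fun (congrArg Subtype.val h) (Additive.ofMul γ)
    have h2 : ∀ γ : Gamma0 N, cHom b₁ a (Additive.ofMul γ) - cHom b₂ c (Additive.ofMul γ) = 0 := by
      intro γ
      have := h1 (jConjGamma0 N γ)
      rw [cHom_jConj b₁ (by norm_num), cHom_jConj b₂ (by norm_num)] at this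
      push_cast at this
      linear_combination this
    refine Prod.ext (cHom_eq_zero b₁ fun γ => ?_) (cHom_eq_zero b₂ fun γ => ?_)
    · have h3 := h1 (Additive.toMul γ)
      have h4 := h2 (Additive.toMul γ)
      simp only [ofMul_toMul] at h3 h4
      linear_combination (h3 + h4) / 2
    · have h3 := h1 (Additive.toMul γ)
      have h4 := h2 (Additive.toMul γ)
      simp only [ofMul_toMul] at h3 h4
      linear_combination (h3 - h4) / 2
  have := LinearMap.finrank_le_finrank_of_injective hΘ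
  rwa [finrank_prod, Module.finrank_fintype_fun_eq_card, Module.finrank_fintype_fun_eq_card] at this

theorem span_basis {s : ℤ} (hs : s ≠ 0) {ι : Type*} (b : Basis ι ℤ (LS N s)) :
    Submodule.span ℂ (Set.range fun i => (b i : Dual ℂ (CuspForm (Gamma0 N) 2))) = ⊤ := by
  rw [eq_top_iff, ← span_LS (N := N) s hs, Submodule.span_le]
  intro x hx
  have h1 : (⟨x, hx⟩ : LS N s) ∈ Submodule.span ℤ (Set.range b) := by rw [b.span_eq]; trivial
  have h2 := Submodule.mem_map_of_mem (f := (LS N s).subtype) h1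
  rw [Submodule.map_span, ← Set.range_comp] at h2
  exact Submodule.span_subset_span ℤ ℂ _ h2

theorem span_int_basis {s : ℤ} {ι : Type*} (b : Basis ι ℤ (LS N s)) :
    Submodule.span ℤ (Set.range fun i => (b i : Dual ℂ (CuspForm (Gamma0 N) 2))) = LS N s := by
  have h1 : Submodule.map (LS N s).subtype (Submodule.span ℤ (Set.range b)) = LS N s := by
    rw [b.span_eq, Submodule.map_top, Submodule.range_subtype]
  rw [Submodule.map_span, ← Set.range_comp] at h1
  exact h1

theorem finrank_le_card {s : ℤ} (hs : s ≠ 0) {ι : Type*} [Fintype ι] (b : Basis ι ℤ (LS N s)) :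
    finrank ℂ (CuspForm (Gamma0 N) 2) ≤ Fintype.card ι := by
  rw [← Subspace.dual_finrank_eq (K := ℂ) (V := CuspForm (Gamma0 N) 2)]
  exact finrank_le_of_span_eq_top (span_basis hs b)

/-- S23, given the upper bound for the parabolic cohomology. -/
theorem hasIntegralStructure_two
    (h : finrank ℂ (parabolicHoms ℂ (Gamma0 N) ℂ) ≤ 2 * finrank ℂ (CuspForm (Gamma0 N) 2)) :
    CuspForm.HasIntegralStructure N 2 := by
  classical
  let b₁ := Module.Free.chooseBasis ℤ (LS N 1)
  let b₂ := Module.Free.chooseBasis ℤ (LS N (-1))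
  have h1 := card_add_card_le b₁ b₂
  have h2 := finrank_le_card (by norm_num) b₁
  have h3 := finrank_le_card (by norm_num) b₂
  have h4 : Fintype.card (Module.Free.ChooseBasisIndex ℤ (LS N 1)) =
      finrank ℂ (Dual ℂ (CuspForm (Gamma0 N) 2)) := by
    rw [Subspace.dual_finrank_eq]; omega
  let B := basisOfTopLeSpanOfCardEqFinrank
    (fun i => (b₁ i : Dual ℂ (CuspForm (Gamma0 N) 2))) (span_basis (by norm_num) b₁).ge h4
  have hB : ∀ i, B i = (b₁ i : Dual ℂ (CuspForm (Gamma0 N) 2)) := fun i => by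
    simp [B]
  refine HeckeDual.hasIntegralStructure_of_basis (by norm_num) B fun t ht i => ?_
  have h5 : Set.range B = Set.range fun i => (b₁ i : Dual ℂ (CuspForm (Gamma0 N) 2)) := by
    congr 1
    exact funext hB
  rw [h5, span_int_basis, hB]
  exact comp_mem_LS 1 ht (b₁ i).2

end Fermat.Agent.EichlerShimura
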