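import Fermat.Agent.EichlerShimura.Nondeg

set_option autoImplicit false

noncomputable section

namespace Fermat.Agent.EichlerShimura

open UpperHalfPlane hiding I
open Complex Filter Topology Function Metric Asymptotics
open scoped Real Manifold MatrixGroups ModularForm Pointwise

variable (N : ℕ) [NeZero N] (m : ℕ)

/-- the space of cusp forms of weight `m + 2`. -/
abbrev CF : Type := CuspForm (CongruenceSubgroup.Gamma0 N) ((m : ℤ) + 2)

variable {N m}

theorem good_form (f : CF N m) (γ : SL(2, ℤ)) {P : ℍ → ℂ} (hP : P ∈ polyFn m) :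
    Good ((⇑f ∣[((m : ℤ) + 2)] γ) * P) := by
  obtain ⟨M, hM, hq⟩ := exists_period N
  refine good_mul_poly hM (fun γ' => ?_) hP
  rw [← SlashAction.slash_mul]
  exact hq _ f _

theorem good_form' (f : CF N m) {P : ℍ → ℂ} (hP : P ∈ polyFn m) : Good (⇑f * P) := by
  simpa using good_form f 1 hP

variable (N m)

/-- the functional `f ↦ ∫_∞^{δ∞} (f|γ) P`, as a `ℤ`-linear map in `P`. -/
def ellLin (δ γ : SL(2, ℤ)) : polyFn m →ₗ[ℤ] Module.Dual ℂ (CF N m) where
  toFun P :=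
    { toFun := fun f => symb δ ((⇑f ∣[((m : ℤ) + 2)] γ) * (P : ℍ → ℂ))
      map_add' := fun f g => by
        rw [FunLike.coe_add, SlashAction.add_slash, add_mul,
          symb_add (good_form f γ P.2) (good_form g γ P.2)]
      map_smul' := fun c f => by
        rw [FunLike.coe_smul, ModularForm.SL_smul_slash, smul_mul_assoc,
          symb_smul c (good_form f γ P.2), RingHom.id_apply, smul_eq_mul] }
  map_add' P Q := by
    ext f
    simp only [LinearMap.coe_mk, AddHom.coe_mk, LinearMap.add_apply, Submodule.coe_add]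
    rw [mul_add, symb_add (good_form f γ P.2) (good_form f γ Q.2)]
  map_smul' c P := by
    ext f
    simp only [LinearMap.coe_mk, AddHom.coe_mk, LinearMap.smul_apply, RingHom.id_apply,
      Submodule.coe_smul]
    have : (⇑f ∣[((m : ℤ) + 2)] γ) * (c • (P : ℍ → ℂ)) =
        (c : ℂ) • ((⇑f ∣[((m : ℤ) + 2)] γ) * (P : ℍ → ℂ)) := by
      funext z
      simp only [Pi.mul_apply, Pi.smul_apply, zsmul_eq_mul, smul_eq_mul, Pi.intCast_apply]
      ring
    rw [this, symb_smul _ (good_form f γ P.2)]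
    simp

variable {N m}

theorem ellLin_apply (δ γ : SL(2, ℤ)) (P : polyFn m) (f : CF N m) :
    ellLin N m δ γ P f = symb δ ((⇑f ∣[((m : ℤ) + 2)] γ) * (P : ℍ → ℂ)) := rfl

theorem ellLin_one_apply (δ : SL(2, ℤ)) (P : polyFn m) (f : CF N m) :
    ellLin N m δ 1 P f = symb δ (⇑f * (P : ℍ → ℂ)) := by
  rw [ellLin_apply, SlashAction.slash_one]

theorem ellLin_mul_apply (δ δ' γ : SL(2, ℤ)) (P : polyFn m) :
    ellLin N m (δ * δ') γ P = ellLin N m δ γ P +
      ellLin N m δ' (γ * δ) ⟨(P : ℍ → ℂ) ∣[(-(m : ℤ))] δ, polyFn_slash P.2 δ⟩ := by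
  ext f
  rw [LinearMap.add_apply, ellLin_apply, ellLin_apply, ellLin_apply, symb_mul (good_form f γ P.2)]
  congr 2
  rw [SlashAction.slash_mul, ← ModularForm.mul_slash_SL2]
  congr 1
  ring

theorem ellLin_T (γ : SL(2, ℤ)) (P : polyFn m) : ellLin N m ModularGroup.T γ P = 0 := by
  ext f
  have h1 := prim_slash (good_form f γ P.2).hasPrim (A := (ModularGroup.T : GL (Fin 2) ℝ))
    (det_coe_pos _) (by simp [ModularGroup.T])
  have h2 := congrFun h1 UpperHalfPlane.I
  rw [ellLin_apply, LinearMap.zero_apply, symb, sub_eq_zero]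
  exact h2.symm

theorem ellLin_one' (γ : SL(2, ℤ)) (P : polyFn m) : ellLin N m 1 γ P = 0 := by
  ext f
  rw [ellLin_apply, symb_one, LinearMap.zero_apply]

theorem ellLin_coset {γ γ' : SL(2, ℤ)} (h : γ' * γ⁻¹ ∈ CongruenceSubgroup.Gamma0 N) (δ : SL(2, ℤ)) :
    ellLin N m δ γ = ellLin N m δ γ' := by
  ext P f
  rw [ellLin_apply, ellLin_apply]
  congr 2
  have : γ' = (γ' * γ⁻¹) * γ := by group
  rw [this, SlashAction.slash_mul, slash_Gamma0 f h]

variable (N m)

/-- the finitely generated lattice of all symbols -/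
def bigLattice : Submodule ℤ (Module.Dual ℂ (CF N m)) :=
  ⨆ q : SL(2, ℤ) ⧸ CongruenceSubgroup.Gamma0 N,
    LinearMap.range (ellLin N m ModularGroup.S (Quotient.out q)⁻¹)

theorem bigLattice_fg : (bigLattice N m).FG := by
  refine Submodule.fg_iSup _ fun q => ?_
  have : Module.Finite ℤ (polyFn m) := Module.Finite.iff_fg.mpr (polyFn_fg m)
  rw [LinearMap.range_eq_map]
  exact (Module.Finite.fg_top).map _

variable {N m}

theorem ellLin_S_mem (γ : SL(2, ℤ)) (P : polyFn m) :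
    ellLin N m ModularGroup.S γ P ∈ bigLattice N m := by
  have h1 : ellLin N m ModularGroup.S γ =
      ellLin N m ModularGroup.S (Quotient.out ((γ⁻¹ : SL(2, ℤ)) :
        SL(2, ℤ) ⧸ CongruenceSubgroup.Gamma0 N))⁻¹ := by
    apply ellLin_coset
    obtain ⟨h, hh⟩ := QuotientGroup.mk_out_eq_mul (CongruenceSubgroup.Gamma0 N) γ⁻¹
    rw [hh]
    have : (γ⁻¹ * (h : SL(2, ℤ)))⁻¹ * γ⁻¹ = (h : SL(2, ℤ))⁻¹ := by group
    rw [this]
    exact inv_mem h.2
  rw [h1]
  exact Submodule.mem_iSup_of_mem _ ⟨P, rfl⟩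

theorem ellLin_mem (δ γ : SL(2, ℤ)) (P : polyFn m) : ellLin N m δ γ P ∈ bigLattice N m := by
  have hδ : δ ∈ Subgroup.closure {ModularGroup.S, ModularGroup.T} := by
    rw [SpecialLinearGroup.SL2Z_generators]; trivial
  induction hδ using Subgroup.closure_induction generalizing γ P with
  | mem x hx =>
    rcases hx with rfl | rfl
    · exact ellLin_S_mem γ P
    · rw [ellLin_T]; exact zero_mem _
  | one => rw [ellLin_one']; exact zero_mem _
  | mul x y _ _ hx hy =>
    rw [ellLin_mul_apply]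
    exact add_mem (hx _ _) (hy _ _)
  | inv x _ hx =>
    have h1 := ellLin_mul_apply (N := N) x⁻¹ x γ P
    rw [inv_mul_cancel, ellLin_one'] at h1
    have h2 : ellLin N m x⁻¹ γ P = - ellLin N m x (γ * x⁻¹)
        ⟨(P : ℍ → ℂ) ∣[(-(m : ℤ))] x⁻¹, polyFn_slash P.2 x⁻¹⟩ := by
      rw [eq_neg_iff_add_eq_zero, ← h1]
    rw [h2]
    exact neg_mem (hx _ _)

variable (N m)

/-- the lattice of symbols of `f` itself -/
def lattice : Submodule ℤ (Module.Dual ℂ (CF N m)) :=
  Submodule.span ℤ {ℓ | ∃ (δ : SL(2, ℤ)) (P : polyFn m), ℓ = ellLin N m δ 1 P}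

theorem lattice_fg : (lattice N m).FG := by
  have hle : lattice N m ≤ bigLattice N m := by
    refine Submodule.span_le.mpr ?_
    rintro _ ⟨δ, P, rfl⟩
    exact ellLin_mem δ 1 P
  have : Module.Finite ℤ (bigLattice N m) := Module.Finite.iff_fg.mpr (bigLattice_fg N m)
  have : IsNoetherian ℤ (bigLattice N m) := inferInstance
  exact Submodule.FG.of_le (bigLattice_fg N m) hle

variable {N m}

theorem eq_zero_of_forall_lattice (f : CF N m) (h : ∀ ℓ ∈ lattice N m, ℓ f = 0) : f = 0 := by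
  refine eq_zero_of_symb_eq_zero f fun δ P hP => ?_
  have := h (ellLin N m δ 1 ⟨P, hP⟩) (Submodule.subset_span ⟨δ, ⟨P, hP⟩, rfl⟩)
  rwa [ellLin_one_apply] at this

theorem sum_heckeMatrix_mem (p : ℕ) (hp : p ≠ 0) (δ : SL(2, ℤ)) (P : polyFn m) :
    ∃ ℓ ∈ lattice N m, ∀ f : CF N m,
      symb δ (ModularForm.heckeU ((m : ℤ) + 2) p ⇑f * (P : ℍ → ℂ)) = ℓ f ∧
      Good (ModularForm.heckeU ((m : ℤ) + 2) p ⇑f * (P : ℍ → ℂ)) := by
  have key : ∀ b : ℕ, ∃ ℓ ∈ lattice N m, ∀ f : CF N m,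
      symb δ ((⇑f ∣[((m : ℤ) + 2)] ModularForm.heckeMatrix p b) * (P : ℍ → ℂ)) = ℓ f ∧
      Good ((⇑f ∣[((m : ℤ) + 2)] ModularForm.heckeMatrix p b) * (P : ℍ → ℂ)) := by
    intro b
    obtain ⟨P', hP', h⟩ := slash_mul_hecke hp b m P.2
    have hdet := ModularForm.det_heckeMatrix_pos p b
    have h10 : (ModularForm.heckeMatrix p b) 1 0 = 0 := by simp [hp]
    have hint : ∃ M : Matrix (Fin 2) (Fin 2) ℤ,
        (ModularForm.heckeMatrix p b : Matrix (Fin 2) (Fin 2) ℝ) = M.map (Int.cast) := by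
      refine ⟨!![1, b; 0, p], ?_⟩
      rw [ModularForm.val_heckeMatrix hp]
      ext i j
      fin_cases i <;> fin_cases j <;> simp
    obtain ⟨δ', B, hB, hB0, hAB⟩ := exists_decomp hdet hint δ
    refine ⟨ellLin N m δ' 1 ⟨P', hP'⟩, Submodule.subset_span ⟨_, _, rfl⟩, fun f => ⟨?_, ?_⟩⟩
    · rw [h, symb_slash (good_form' f hP') hdet h10 hB hB0 δ δ' hAB, ellLin_one_apply]
    · rw [h]
      exact (good_form' f hP').slash_of_upper (fun δ => exists_decomp hdet hint δ)
  choose ℓ hℓ hℓ' using key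
  refine ⟨∑ b ∈ Finset.range p, ℓ b, Submodule.sum_mem _ fun b _ => hℓ b, fun f => ?_⟩
  rw [ModularForm.heckeU_def, Finset.sum_mul, LinearMap.sum_apply]
  generalize Finset.range p = s
  induction s using Finset.induction_on with
  | empty => simp only [Finset.sum_empty]; exact ⟨symb_zero δ, Good.zero⟩
  | insert b s hb ih =>
    rw [Finset.sum_insert hb, Finset.sum_insert hb]
    exact ⟨by rw [symb_add (hℓ' b f).2 ih.2, (hℓ' b f).1, ih.1], (hℓ' b f).2.add ih.2⟩

theorem heckeDiag_mem (p : ℕ) (hp : p ≠ 0) (δ : SL(2, ℤ)) (P : polyFn m) :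
    ∃ ℓ ∈ lattice N m, ∀ f : CF N m,
      symb δ ((⇑f ∣[((m : ℤ) + 2)] ModularForm.heckeDiagMatrix p) * (P : ℍ → ℂ)) = ℓ f ∧
      Good ((⇑f ∣[((m : ℤ) + 2)] ModularForm.heckeDiagMatrix p) * (P : ℍ → ℂ)) := by
  obtain ⟨P', hP', h⟩ := slash_mul_heckeDiag hp m P.2
  have hdet := ModularForm.det_heckeDiagMatrix_pos p
  have h10 : (ModularForm.heckeDiagMatrix p) 1 0 = 0 := by simp [hp]
  have hint : ∃ M : Matrix (Fin 2) (Fin 2) ℤ,
      (ModularForm.heckeDiagMatrix p : Matrix (Fin 2) (Fin 2) ℝ) = M.map (Int.cast) := by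
    refine ⟨!![p, 0; 0, 1], ?_⟩
    rw [ModularForm.val_heckeDiagMatrix hp]
    ext i j
    fin_cases i <;> fin_cases j <;> simp
  obtain ⟨δ', B, hB, hB0, hAB⟩ := exists_decomp hdet hint δ
  refine ⟨ellLin N m δ' 1 ⟨P', hP'⟩, Submodule.subset_span ⟨_, _, rfl⟩, fun f => ⟨?_, ?_⟩⟩
  · rw [h, symb_slash (good_form' f hP') hdet h10 hB hB0 δ δ' hAB, ellLin_one_apply]
  · rw [h]
    exact (good_form' f hP').slash_of_upper (fun δ => exists_decomp hdet hint δ)

theorem comp_mem_lattice_of_gen {t : Module.End ℂ (CF N m)} {S : Set ℕ}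
    (ht : t ∈ CuspForm.heckeGenerators N ((m : ℤ) + 2) S) {ℓ : Module.Dual ℂ (CF N m)}
    (hℓ : ℓ ∈ lattice N m) : ℓ ∘ₗ t ∈ lattice N m := by
  induction hℓ using Submodule.span_induction with
  | mem x hx =>
    obtain ⟨δ, P, rfl⟩ := hx
    rcases ht with ⟨p, hp, hpN, -, rfl⟩ | ⟨p, hpN, hp, -, rfl⟩
    · obtain ⟨ℓ₁, h₁, h₁'⟩ := sum_heckeMatrix_mem (N := N) p hp.ne_zero δ P
      obtain ⟨ℓ₂, h₂, h₂'⟩ := heckeDiag_mem (N := N) p hp.ne_zero δ P
      have : ellLin N m δ 1 P ∘ₗ CuspForm.heckeTLin ((m : ℤ) + 2) hp hpN = ℓ₁ + ℓ₂ := by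
        ext f
        rw [LinearMap.comp_apply, ellLin_one_apply, CuspForm.coe_heckeTLin_apply,
          ModularForm.heckeT_eq_heckeU_add, add_mul, symb_add (h₁' f).2 (h₂' f).2, (h₁' f).1,
          (h₂' f).1, LinearMap.add_apply]
      rw [this]
      exact add_mem h₁ h₂
    · obtain ⟨ℓ₁, h₁, h₁'⟩ := sum_heckeMatrix_mem (N := N) p hp.ne_zero δ P
      have : ellLin N m δ 1 P ∘ₗ CuspForm.heckeULin ((m : ℤ) + 2) hpN = ℓ₁ := by
        ext f
        rw [LinearMap.comp_apply, ellLin_one_apply, CuspForm.coe_heckeULin_apply, (h₁' f).1]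
      rw [this]
      exact h₁
  | zero => rw [LinearMap.zero_comp]; exact zero_mem _
  | add x y _ _ hx hy => rw [LinearMap.add_comp]; exact add_mem hx hy
  | smul c x _ hx =>
    have : (c • x) ∘ₗ t = c • (x ∘ₗ t) := rfl
    rw [this]
    exact Submodule.smul_mem _ _ hx

theorem comp_mem_lattice {t : Module.End ℂ (CF N m)} {S : Set ℕ}
    (ht : t ∈ CuspForm.heckeAlgebra N ((m : ℤ) + 2) S) {ℓ : Module.Dual ℂ (CF N m)}
    (hℓ : ℓ ∈ lattice N m) : ℓ ∘ₗ t ∈ lattice N m := by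
  induction ht using Algebra.adjoin_induction generalizing ℓ with
  | mem x hx => exact comp_mem_lattice_of_gen hx hℓ
  | algebraMap r =>
    have : ℓ ∘ₗ (algebraMap ℤ (Module.End ℂ (CF N m)) r) = r • ℓ := by
      ext f
      simp
    rw [this]
    exact Submodule.smul_mem _ _ hℓ
  | add x y _ _ hx hy => rw [LinearMap.comp_add]; exact add_mem (hx hℓ) (hy hℓ)
  | mul x y _ _ hx hy =>
    have : ℓ ∘ₗ (x * y) = (ℓ ∘ₗ x) ∘ₗ y := rfl
    rw [this]
    exact hy (hx hℓ)

/-- The Hecke algebra in weight `m + 2` is finitely generated. -/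
theorem heckeAlgebra_finite (N : ℕ) [NeZero N] (m : ℕ) (S : Set ℕ) :
    Module.Finite ℤ (CuspForm.heckeAlgebra N ((m : ℤ) + 2) S) := by
  obtain ⟨s, hs⟩ := lattice_fg N m
  have : Module.Finite ℤ (lattice N m) := Module.Finite.iff_fg.mpr (lattice_fg N m)
  let φ : CuspForm.heckeAlgebra N ((m : ℤ) + 2) S →ₗ[ℤ] (s → lattice N m) :=
    { toFun := fun t ℓ => ⟨(ℓ : Module.Dual ℂ (CF N m)) ∘ₗ t.1,
        comp_mem_lattice t.2 (hs ▸ Submodule.subset_span ℓ.2)⟩
      map_add' := fun t t' => by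
        funext ℓ
        apply Subtype.ext
        exact LinearMap.comp_add _ _ _
      map_smul' := fun c t => by
        funext ℓ
        apply Subtype.ext
        ext f
        simp }
  have hφ : Function.Injective φ := by
    rw [injective_iff_map_eq_zero]
    intro t ht
    apply Subtype.ext
    ext1 f
    change t.1 f = 0
    apply eq_zero_of_forall_lattice
    have h1 : ∀ ℓ ∈ s, ℓ (t.1 f) = 0 := by
      intro ℓ hℓ
      have := congrArg Subtype.val (congrFun ht ⟨ℓ, hℓ⟩)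
      exact LinearMap.congr_fun this f
    intro ℓ hℓ
    rw [← hs] at hℓ
    induction hℓ using Submodule.span_induction with
    | mem x hx => exact h1 x hx
    | zero => rfl
    | add x y _ _ hx hy => rw [LinearMap.add_apply, hx, hy, add_zero]
    | smul c x _ hx =>
      rw [LinearMap.smul_apply, hx, smul_zero]
  exact Module.Finite.of_injective φ hφ

end Fermat.Agent.EichlerShimura
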