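import Fermat.Agent.EichlerShimura.Functional
import Fermat.Prelude.Thm_Subgroup_IsArithmetic_exists_nat_mem_strictPeriods_conj
import Fermat.Prelude.Def_ModularForm_HeckeOperatorForms
import Fermat.Prelude.Def_CuspForm_HeckeAlgebra
import Fermat.Prelude.Thm_ModularForm_sturm_bound_Gamma0

set_option autoImplicit false

noncomputable section

namespace Fermat.Agent.EichlerShimura

open UpperHalfPlane hiding I
open Complex Filter Topology Function Metric Asymptotics
open scoped Real Manifold MatrixGroups ModularForm Pointwise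

theorem exists_period (N : ℕ) [NeZero N] : ∃ M : ℕ, 0 < M ∧
    ∀ (k : ℤ) (f : CuspForm (CongruenceSubgroup.Gamma0 N) k) (γ : SL(2, ℤ)),
      IsQ M (⇑f ∣[k] γ) := by
  obtain ⟨M, hM, hM'⟩ := Subgroup.IsArithmetic.exists_nat_mem_strictPeriods_conj
    ((CongruenceSubgroup.Gamma0 N : Subgroup SL(2, ℤ)) : Subgroup (GL (Fin 2) ℝ))
  refine ⟨M, hM, fun k f γ => ?_⟩
  have hper := hM' γ⁻¹
  rw [map_inv] at hper
  have hMpos : (0 : ℝ) < M := by exact_mod_cast hM
  have : Fact (IsCusp OnePoint.infty (ConjAct.toConjAct (γ : GL (Fin 2) ℝ)⁻¹ •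
      ((CongruenceSubgroup.Gamma0 N : Subgroup SL(2, ℤ)) : Subgroup (GL (Fin 2) ℝ)))) :=
    ⟨Subgroup.isCusp_of_mem_strictPeriods hMpos hper⟩
  have hcoe : ⇑(CuspForm.translate f (γ : GL (Fin 2) ℝ)) = ⇑f ∣[k] γ := rfl
  rw [← hcoe]
  exact ⟨SlashInvariantFormClass.periodic_comp_ofComplex _ hper, CuspFormClass.holo _,
    CuspFormClass.zero_at_infty _⟩

theorem slash_Gamma0 {N : ℕ} {k : ℤ} (f : CuspForm (CongruenceSubgroup.Gamma0 N) k)
    {γ : SL(2, ℤ)} (hγ : γ ∈ CongruenceSubgroup.Gamma0 N) : ⇑f ∣[k] γ = ⇑f := by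
  rw [ModularForm.SL_slash]
  exact SlashInvariantFormClass.slash_action_eq f _ (Subgroup.mem_map_of_mem _ hγ)

/-- cusp forms of weight `≤ 0` vanish. -/
theorem cuspForm_eq_zero_of_nonpos {N : ℕ} [NeZero N] {k : ℤ} (hk : k ≤ 0)
    (f : CuspForm (CongruenceSubgroup.Gamma0 N) k) : f = 0 := by
  have h1 : CuspForm.toModularFormₗ f = 0 := by
    refine ModularForm.sturm_bound_Gamma0 N _ fun n hn => ?_
    have h2 : (k * ((CongruenceSubgroup.Gamma0 N).index : ℤ)).toNat = 0 := by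
      apply Int.toNat_eq_zero.mpr
      exact mul_nonpos_of_nonpos_of_nonneg hk (by positivity)
    rw [h2] at hn
    have hn0 : n = 0 := by omega
    subst hn0
    have h3 : (qExpansion 1 (⇑(CuspForm.toModularFormₗ f))).coeff 0 = 0 := by
      have : ⇑(CuspForm.toModularFormₗ f) = ⇑f := rfl
      rw [this]
      exact CuspFormClass.qExpansion_coeff_zero f one_pos (by simp)
    exact h3
  exact CuspForm.toModularFormₗ_injective (by rw [h1, map_zero])

theorem neg_one_mem_Gamma0 (N : ℕ) : (-1 : SL(2, ℤ)) ∈ CongruenceSubgroup.Gamma0 N := by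
  simp [CongruenceSubgroup.Gamma0_mem]

/-- cusp forms of odd weight vanish. -/
theorem cuspForm_eq_zero_of_odd {N : ℕ} {k : ℤ} (hk : Odd k)
    (f : CuspForm (CongruenceSubgroup.Gamma0 N) k) : f = 0 := by
  ext z
  have h1 := congrFun (slash_Gamma0 f (neg_one_mem_Gamma0 N)) z
  rw [ModularForm.SL_slash_apply] at h1
  have h2 : ((-1 : SL(2, ℤ)) • z : ℍ) = z := by
    have := ModularGroup.SL_neg_smul (1 : SL(2, ℤ)) z
    rwa [one_smul] at this
  rw [h2] at h1
  have h3 : denom ((-1 : SL(2, ℤ)) : GL (Fin 2) ℝ) z = -1 := by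
    simp [denom]
  rw [h3, Odd.neg_one_zpow (by simpa using hk.neg)] at h1
  have h4 : f z = 0 := by linear_combination (-1 / 2 : ℂ) * h1
  simpa using h4

end Fermat.Agent.EichlerShimura
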