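import Fermat.Agent.EichlerShimura.PrimPow

set_option autoImplicit false

noncomputable section

namespace Fermat.Agent.EichlerShimura

open UpperHalfPlane hiding I
open Complex Filter Topology Function Metric Asymptotics
open scoped Real Manifold MatrixGroups ModularForm Pointwise
open CongruenceSubgroup

theorem norm_qParam_le {M : ℕ} (hM : 0 < M) {z : ℍ} (hz : 1 / 2 ≤ z.im) :
    ‖Periodic.qParam (M : ℝ) (z : ℂ)‖ ≤ Real.exp (-π / M) := by
  have hM' : (0 : ℝ) < M := by exact_mod_cast hM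
  rw [Periodic.norm_qParam, Real.exp_le_exp, coe_im]
  have : -2 * π * z.im ≤ -π := by nlinarith [Real.pi_pos]
  exact div_le_div_of_nonneg_right this hM'.le

theorem anti_eq_zero_of_re_invariant {N : ℕ} [NeZero N] {M : ℕ} (hM : 0 < M) {φ G : ℍ → ℂ}
    (hanti : IsAnti φ G)
    (hG : ∀ δ : SL(2, ℤ), ∃ (h : ℍ → ℂ) (c : ℂ), IsQ M h ∧ ∀ z, G (δ • z) = h z + c)
    (hinv : ∀ γ ∈ Gamma0 N, ∀ z, (G (γ • z)).re = (G z).re) : φ = 0 := by
  classical
  have hM' : (0 : ℝ) < M := by exact_mod_cast hM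
  have : Finite (SL(2, ℤ) ⧸ Gamma0 N) := inferInstance
  let _ : Fintype (SL(2, ℤ) ⧸ Gamma0 N) := Fintype.ofFinite _
  let E : (SL(2, ℤ) ⧸ Gamma0 N) → ℍ → ℂ := fun q z => Complex.exp (G ((Quotient.out q)⁻¹ • z))
  have hE : ∀ q, Periodic (E q ∘ ofComplex) ((M : ℝ) : ℂ) ∧ MDiff (E q) ∧ IsBoundedAtImInfty (E q) := by
    intro q
    obtain ⟨h, c, hh, hc⟩ := hG (Quotient.out q)⁻¹
    have hEq : E q = fun z => Complex.exp (h z + c) := by
      funext z
      simp only [E, hc]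
    rw [hEq]
    refine ⟨?_, ?_, ?_⟩
    · intro z
      have := hh.per z
      simp only [comp_apply] at this ⊢
      rw [this]
    · rw [UpperHalfPlane.mdifferentiable_iff]
      have h1 := UpperHalfPlane.mdifferentiable_iff.mp hh.holo
      have h2 : DifferentiableOn ℂ (fun w => Complex.exp ((h ∘ ofComplex) w + c))
          upperHalfPlaneSet := (h1.add_const c).cexp
      exact h2
    · have h1 : Tendsto h atImInfty (𝓝 0) := hh.zero
      have h2 := (h1.add_const c).cexp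
      exact h2.isBigO_one ℝ
  let C : ℂ → EuclideanSpace ℂ (SL(2, ℤ) ⧸ Gamma0 N) := fun w =>
    WithLp.toLp 2 (fun q => cuspFunction M (E q) w)
  have hC : DifferentiableOn ℂ C (ball 0 1) := by
    rw [differentiableOn_euclidean]
    intro q
    exact differentiableOn_cuspFunction_ball hM' (hE q).1 (hE q).2.1 (hE q).2.2
  have hCz : ∀ (z : ℍ) q, (C (Periodic.qParam (M : ℝ) (z : ℂ))).ofLp q = E q z := by
    intro z q
    exact UpperHalfPlane.eq_cuspFunction z hM'.ne' (hE q).1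
  have hnorm : ∀ z : ℍ, ‖C (Periodic.qParam (M : ℝ) (z : ℂ))‖ ^ 2 = ∑ q, ‖E q z‖ ^ 2 := by
    intro z
    rw [EuclideanSpace.norm_sq_eq]
    simp only [hCz]
  have hinv2 : ∀ (δ : SL(2, ℤ)) (z : ℍ), ∑ q, ‖E q (δ • z)‖ ^ 2 = ∑ q, ‖E q z‖ ^ 2 := by
    intro δ z
    refine Fintype.sum_equiv (MulAction.toPerm δ⁻¹) _ _ fun q => ?_
    congr 1
    simp only [E, Complex.norm_exp, MulAction.toPerm_apply]
    congr 1
    obtain ⟨g, hg⟩ : ∃ g : Gamma0 N, Quotient.out (δ⁻¹ • q) = δ⁻¹ * Quotient.out q * g := by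
      have h1 : δ⁻¹ • q = ((δ⁻¹ * Quotient.out q : SL(2, ℤ)) : SL(2, ℤ) ⧸ Gamma0 N) := by
        conv_lhs => rw [← QuotientGroup.out_eq' q]
        rfl
      rw [h1]
      exact QuotientGroup.mk_out_eq_mul (Gamma0 N) _
    have h2 : (Quotient.out q)⁻¹ • δ • z = (g : SL(2, ℤ)) • ((Quotient.out (δ⁻¹ • q))⁻¹ • z) := by
      rw [hg, ← mul_smul, ← mul_smul]
      congr 1
      group
    rw [h2, hinv _ g.2]
  have hconst : Set.EqOn C (Function.const ℂ (C 0)) (ball 0 1) := by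
    refine eq_const_of_exists_le hC (r := Real.exp (-π / M)) (Real.exp_nonneg _) ?_ fun w hw => ?_
    · rw [Real.exp_lt_one_iff]
      exact div_neg_of_neg_of_pos (by linarith [Real.pi_pos]) hM'
    · rcases eq_or_ne w 0 with rfl | hw0
      · exact ⟨0, by simpa using Real.exp_nonneg _, le_rfl⟩
      · have hw1 : ‖w‖ < 1 := mem_ball_zero_iff.mp hw
        let z : ℍ := ⟨_, Periodic.im_invQParam_pos_of_norm_lt_one hM' hw1 hw0⟩
        have hzw : Periodic.qParam (M : ℝ) (z : ℂ) = w := Periodic.qParam_right_inv hM'.ne' hw0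
        obtain ⟨γ, hγ⟩ := ModularGroup.exists_one_half_le_im_smul z
        refine ⟨Periodic.qParam (M : ℝ) ((γ • z : ℍ) : ℂ), ?_, ?_⟩
        · rw [mem_closedBall_zero_iff]
          exact norm_qParam_le hM hγ
        · have : ‖C w‖ ^ 2 = ‖C (Periodic.qParam (M : ℝ) ((γ • z : ℍ) : ℂ))‖ ^ 2 := by
            rw [hnorm, hinv2, ← hnorm, hzw]
          exact le_of_eq ((sq_eq_sq₀ (norm_nonneg _) (norm_nonneg _)).mp this)
  have hEconst : ∀ q (z : ℍ), E q z = (C 0).ofLp q := by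
    intro q z
    rw [← hCz z q, hconst (mem_ball_zero_iff.mpr (Periodic.norm_qParam_lt_one hM' z.im_pos))]
    rfl
  -- exp ∘ G is constant
  have hexp : ∃ c : ℂ, ∀ z : ℍ, Complex.exp (G z) = c := by
    let q₀ : SL(2, ℤ) ⧸ Gamma0 N := ((1 : SL(2, ℤ)) : SL(2, ℤ) ⧸ Gamma0 N)
    refine ⟨(C 0).ofLp q₀, fun z => ?_⟩
    have := hEconst q₀ (Quotient.out q₀ • z)
    simpa only [E, inv_smul_smul] using this
  obtain ⟨c, hc⟩ := hexp
  funext τ
  have h1 : HasDerivAt (fun w => Complex.exp ((G ∘ ofComplex) w))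
      (Complex.exp ((G ∘ ofComplex) τ) * φ τ) (τ : ℂ) := (hanti τ).cexp
  have h2 : (fun w => Complex.exp ((G ∘ ofComplex) w)) = fun _ => c := by
    funext w
    exact hc _
  rw [h2] at h1
  have h3 := h1.unique (hasDerivAt_const _ _)
  exact (mul_eq_zero.mp h3).resolve_left (Complex.exp_ne_zero _)

end Fermat.Agent.EichlerShimura
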