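import Fermat.Agent.EichlerShimura.PolyFn

set_option autoImplicit false

noncomputable section

namespace Fermat.Agent.EichlerShimura

open UpperHalfPlane hiding I
open Complex Filter Topology Function Metric Asymptotics
open scoped Real Manifold MatrixGroups ModularForm Pointwise

/-- complex polynomial functions of degree `≤ m` -/
def polyFnC (m : ℕ) : Submodule ℂ (ℍ → ℂ) := Submodule.span ℂ (mono '' Set.Iic m)

theorem sub_pow_mem (w₀ : ℂ) (m : ℕ) : (fun w : ℍ => ((w : ℂ) - w₀) ^ m) ∈ polyFnC m := by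
  have e : (fun w : ℍ => ((w : ℂ) - w₀) ^ m) =
      ∑ j ∈ Finset.range (m + 1), ((-w₀) ^ (m - j) * (m.choose j : ℂ)) • mono j := by
    funext w
    rw [sub_eq_add_neg, add_pow, Finset.sum_apply]
    refine Finset.sum_congr rfl fun j _ => ?_
    simp only [Pi.smul_apply, mono, smul_eq_mul]
    ring
  rw [e]
  refine Submodule.sum_mem _ fun j hj => Submodule.smul_mem _ _ (Submodule.subset_span ⟨j, ?_, rfl⟩)
  have := Finset.mem_range.mp hj
  exact Nat.lt_succ_iff.mp this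

theorem symb_eq_zero_of_polyFnC {M : ℕ} (hM : 0 < M) {f : ℍ → ℂ} {m : ℕ}
    (hf : ∀ γ : SL(2, ℤ), IsQ M (f ∣[((m : ℤ) + 2)] γ)) (δ : SL(2, ℤ))
    (h0 : ∀ P ∈ polyFn m, symb δ (f * P) = 0) {P : ℍ → ℂ} (hP : P ∈ polyFnC m) :
    Good (f * P) ∧ symb δ (f * P) = 0 := by
  induction hP using Submodule.span_induction with
  | mem x hx =>
    have hx' : x ∈ polyFn m := Submodule.subset_span hx
    exact ⟨good_mul_poly hM hf hx', h0 x hx'⟩
  | zero => rw [mul_zero]; exact ⟨Good.zero, symb_zero δ⟩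
  | add x y _ _ hx hy =>
    rw [mul_add]
    exact ⟨hx.1.add hy.1, by rw [symb_add hx.1 hy.1, hx.2, hy.2, add_zero]⟩
  | smul c x _ hx =>
    have : f * (c • x) = c • (f * x) := by
      funext z
      simp only [Pi.mul_apply, Pi.smul_apply, smul_eq_mul]
      ring
    rw [this]
    exact ⟨hx.1.smul c, by rw [symb_smul c hx.1, hx.2, mul_zero]⟩

theorem smul_sub_smul (δ : SL(2, ℤ)) (w z : ℍ) :
    ((δ • w : ℍ) : ℂ) - ((δ • z : ℍ) : ℂ) =
      ((w : ℂ) - z) / (denom (δ : GL (Fin 2) ℝ) w * denom (δ : GL (Fin 2) ℝ) z) := by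
  have hn : ∀ z : ℍ, ((δ • z : ℍ) : ℂ) =
      ((δ 0 0 : ℤ) * (z : ℂ) + (δ 0 1 : ℤ)) / denom (δ : GL (Fin 2) ℝ) z := by
    intro z
    have hd : denom (δ : GL (Fin 2) ℝ) z = ((δ 1 0 : ℤ) * (z : ℂ) + (δ 1 1 : ℤ)) := by
      simp [denom]
    rw [UpperHalfPlane.coe_specialLinearGroup_apply]
    simp [hd]
  have hw : denom (δ : GL (Fin 2) ℝ) w ≠ 0 := denom_ne_zero _ _
  have hz : denom (δ : GL (Fin 2) ℝ) z ≠ 0 := denom_ne_zero _ _
  rw [hn, hn, div_sub_div _ _ hw hz]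
  congr 1
  have hd : ∀ z : ℍ, denom (δ : GL (Fin 2) ℝ) z = ((δ 1 0 : ℤ) * (z : ℂ) + (δ 1 1 : ℤ)) := by
    intro z; simp [denom]
  rw [hd, hd]
  have hdet : ((δ 0 0 : ℤ) : ℂ) * (δ 1 1 : ℤ) - (δ 0 1 : ℤ) * (δ 1 0 : ℤ) = 1 := by
    have := δ.det_coe
    rw [Matrix.det_fin_two] at this
    exact_mod_cast this
  linear_combination ((w : ℂ) - z) * hdet

/-- If all symbols of `f·P` vanish, the iterated primitive of `f` is modular of weight `-m`. -/
theorem iterate_prim_slash {M : ℕ} (hM : 0 < M) {f : ℍ → ℂ} {m : ℕ}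
    (hf : ∀ γ : SL(2, ℤ), IsQ M (f ∣[((m : ℤ) + 2)] γ)) (δ : SL(2, ℤ))
    (h0 : ∀ P ∈ polyFn m, symb δ (f * P) = 0) :
    (prim^[m + 1] f) ∣[(-(m : ℤ))] δ = prim^[m + 1] (f ∣[((m : ℤ) + 2)] δ) := by
  have hM' : (0 : ℝ) < M := by exact_mod_cast hM
  have hf1 : IsQ M f := by simpa using hf 1
  funext z
  set w₀ : ℍ := δ • z with hw₀
  obtain ⟨hgood, hsymb⟩ := symb_eq_zero_of_polyFnC hM hf δ h0 (sub_pow_mem (w₀ : ℂ) m)
  have h1 := hgood.sub_eq_symb δ z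
  rw [hsymb, sub_eq_zero, ← hw₀] at h1
  have h2 : prim (f * fun w : ℍ => ((w : ℂ) - w₀) ^ m) w₀ =
      (-1) ^ m * (m.factorial : ℂ) * prim^[m + 1] f w₀ := hf1.prim_pow_apply hM' w₀ m
  have hdz : denom (δ : GL (Fin 2) ℝ) z ≠ 0 := denom_ne_zero _ _
  have h3 : (f * fun w : ℍ => ((w : ℂ) - w₀) ^ m) ∣[(2 : ℤ)] δ =
      ((denom (δ : GL (Fin 2) ℝ) z ^ m)⁻¹) •
        (fun w => (f ∣[((m : ℤ) + 2)] δ) w * ((w : ℂ) - z) ^ m) := by
    funext w
    have hdw : denom (δ : GL (Fin 2) ℝ) w ≠ 0 := denom_ne_zero _ _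
    rw [ModularForm.SL_slash_apply, Pi.mul_apply, Pi.smul_apply, ModularForm.SL_slash_apply,
      hw₀, smul_sub_smul, smul_eq_mul, show -((m : ℤ) + 2) = -(m : ℤ) + (-2 : ℤ) by ring,
      zpow_add₀ hdw, zpow_neg _ (m : ℤ), zpow_natCast, div_pow, mul_pow]
    field_simp
  have h4 : prim ((f * fun w : ℍ => ((w : ℂ) - w₀) ^ m) ∣[(2 : ℤ)] δ) z =
      ((denom (δ : GL (Fin 2) ℝ) z ^ m)⁻¹) * ((-1) ^ m * (m.factorial : ℂ) *
        prim^[m + 1] (f ∣[((m : ℤ) + 2)] δ) z) := by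
    rw [h3, prim_smul _ ((hf δ).hasPrim_pow hM' z m), Pi.smul_apply, smul_eq_mul,
      (hf δ).prim_pow_apply hM' z m]
  rw [h2, h4] at h1
  rw [ModularForm.SL_slash_apply, neg_neg, zpow_natCast, ← hw₀]
  have h5 : ((-1 : ℂ) ^ m * (m.factorial : ℂ)) ≠ 0 :=
    mul_ne_zero (pow_ne_zero _ (by norm_num)) (by exact_mod_cast m.factorial_ne_zero)
  have h6 : prim^[m + 1] f w₀ = ((denom (δ : GL (Fin 2) ℝ) z ^ m)⁻¹) *
      prim^[m + 1] (f ∣[((m : ℤ) + 2)] δ) z := by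
    apply mul_left_cancel₀ h5
    rw [h1]
    ring
  rw [h6]
  have : denom (δ : GL (Fin 2) ℝ) z ^ m ≠ 0 := pow_ne_zero _ hdz
  field_simp

/-- Nondegeneracy: a cusp form all of whose symbols vanish is zero. -/
theorem eq_zero_of_symb_eq_zero {N : ℕ} [NeZero N] {m : ℕ}
    (f : CuspForm (CongruenceSubgroup.Gamma0 N) ((m : ℤ) + 2))
    (h0 : ∀ (δ : SL(2, ℤ)), ∀ P ∈ polyFn m, symb δ (⇑f * P) = 0) : f = 0 := by
  obtain ⟨M, hM, hq⟩ := exists_period N
  have hM' : (0 : ℝ) < M := by exact_mod_cast hM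
  have hf := hq ((m : ℤ) + 2) f
  have hf1 : IsQ M ⇑f := by simpa using hf 1
  have hsl := fun δ => iterate_prim_slash hM hf δ (h0 δ)
  let F : CuspForm (CongruenceSubgroup.Gamma0 N) (-(m : ℤ)) :=
    { toFun := prim^[m + 1] ⇑f
      slash_action_eq' := by
        rintro γ ⟨γ', hγ', rfl⟩
        have := hsl γ'
        rw [slash_Gamma0 f hγ'] at this
        exact this
      holo' := (hf1.iterate hM' (m + 1)).holo
      zero_at_cusps' := by
        intro c hc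
        rw [Subgroup.IsArithmetic.isCusp_iff_isCusp_SL2Z] at hc
        rw [OnePoint.isZeroAt_iff_forall_SL2Z hc]
        intro γ _
        rw [hsl γ]
        exact ((hf γ).iterate hM' (m + 1)).zero }
  have hF : F = 0 := cuspForm_eq_zero_of_nonpos (by omega) F
  have hF' : prim^[m + 1] ⇑f = 0 := by
    have : ⇑F = 0 := by rw [hF]; rfl
    exact this
  have := eq_zero_of_iterate_prim_eq_zero hM' hf1 (m + 1) hF'
  exact DFunLike.coe_injective this

end Fermat.Agent.EichlerShimura
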