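import Fermat.Agent.EichlerShimura.PermRep
import Fermat.Agent.Gamma0Comb.Index
import Fermat.Agent.Gamma0Comb.Orbits
import Fermat.Prelude.Def_ModularCurve_PeriodMap

/-!
# The dimension of the space of parabolic homomorphisms
-/

set_option autoImplicit false

noncomputable section

namespace Fermat.Agent.EichlerShimura

open ModularGroup Module CongruenceSubgroup ModularCurve.Period
open scoped MatrixGroups

/-- the coset space -/
abbrev XX (N : ℕ) := SL(2, ℤ) ⧸ Gamma0 N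

variable {N : ℕ}

lemma cocEl_mem (g : SL(2, ℤ)) (x : XX N) :
    (Quotient.out x)⁻¹ * g * Quotient.out (g⁻¹ • x) ∈ Gamma0 N := by
  rw [mul_assoc, ← QuotientGroup.eq (s := Gamma0 N)]
  rw [show ((g * Quotient.out (g⁻¹ • x) : SL(2, ℤ)) : XX N) =
    g • ((Quotient.out (g⁻¹ • x) : SL(2, ℤ)) : XX N) from rfl]
  rw [QuotientGroup.out_eq', QuotientGroup.out_eq', smul_inv_smul]

/-- the element of `Γ` of the cocycle -/
def cocEl (g : SL(2, ℤ)) (x : XX N) : Gamma0 N := ⟨_, cocEl_mem g x⟩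

lemma coe_cocEl (g : SL(2, ℤ)) (x : XX N) :
    (cocEl g x : SL(2, ℤ)) = (Quotient.out x)⁻¹ * g * Quotient.out (g⁻¹ • x) := rfl

lemma cocEl_mul (g h : SL(2, ℤ)) (x : XX N) :
    cocEl (g * h) x = cocEl g x * cocEl h (g⁻¹ • x) := by
  apply Subtype.ext
  rw [Subgroup.coe_mul, coe_cocEl, coe_cocEl, coe_cocEl, mul_inv_rev, mul_smul]
  group

/-- the cocycle attached to a homomorphism (Shapiro) -/
def coc (φ : Additive (Gamma0 N) →+ ℂ) (g : SL(2, ℤ)) : XX N → ℂ :=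
  fun x => φ (Additive.ofMul (cocEl g x))

lemma coc_mul (φ : Additive (Gamma0 N) →+ ℂ) (g h : SL(2, ℤ)) :
    coc φ (g * h) = coc φ g + perm (XX N) g (coc φ h) := by
  ext x
  rw [Pi.add_apply, perm_apply, coc, cocEl_mul, ofMul_mul, map_add]
  rfl

/-- cocycle plus coboundary -/
def tot (p : parabolicHoms ℂ (Gamma0 N) ℂ × (XX N → ℂ)) (g : SL(2, ℤ)) : XX N → ℂ :=
  coc p.1.1 g + (perm (XX N) g p.2 - p.2)

lemma tot_mul (p : parabolicHoms ℂ (Gamma0 N) ℂ × (XX N → ℂ)) (g h : SL(2, ℤ)) :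
    tot p (g * h) = tot p g + perm (XX N) g (tot p h) := by
  simp only [tot, coc_mul, perm_mul, map_add, map_sub]
  abel

lemma tot_one (p : parabolicHoms ℂ (Gamma0 N) ℂ × (XX N → ℂ)) : tot p 1 = 0 := by
  have := tot_mul p 1 1
  rw [mul_one, perm_one] at this
  simpa using this

lemma tot_inv (p : parabolicHoms ℂ (Gamma0 N) ℂ × (XX N → ℂ)) (g : SL(2, ℤ)) :
    tot p g⁻¹ = - perm (XX N) g⁻¹ (tot p g) := by
  have := tot_mul p g⁻¹ g
  rw [inv_mul_cancel, tot_one] at this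
  exact eq_neg_of_add_eq_zero_left this.symm

variable (N) in
/-- `(φ, v) ↦ (z(S), z(U))` -/
def totPair : (parabolicHoms ℂ (Gamma0 N) ℂ × (XX N → ℂ)) →ₗ[ℂ] (XX N → ℂ) × (XX N → ℂ) where
  toFun p := (tot p S, tot p US)
  map_add' p q := by
    refine Prod.ext ?_ ?_ <;>
    · ext x
      simp [tot, coc]
      ring
  map_smul' c p := by
    refine Prod.ext ?_ ?_ <;>
    · ext x
      simp [tot, coc]
      ring

lemma totPair_apply (p : parabolicHoms ℂ (Gamma0 N) ℂ × (XX N → ℂ)) :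
    totPair N p = (tot p S, tot p US) := rfl

lemma tot_eq_zero {p : parabolicHoms ℂ (Gamma0 N) ℂ × (XX N → ℂ)} (hp : totPair N p = 0)
    (g : SL(2, ℤ)) : tot p g = 0 := by
  have hg : g ∈ Subgroup.closure ({S, US} : Set SL(2, ℤ)) := by rw [closure_S_US]; trivial
  rw [totPair_apply, Prod.mk_eq_zero] at hp
  induction hg using Subgroup.closure_induction with
  | mem g hg =>
    rcases hg with rfl | rfl
    · exact hp.1
    · exact hp.2
  | one => exact tot_one p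
  | mul g h _ _ h1 h2 => rw [tot_mul, h1, h2, map_zero, add_zero]
  | inv g _ h => rw [tot_inv, h, map_zero, neg_zero]

lemma fst_eq_zero {p : parabolicHoms ℂ (Gamma0 N) ℂ × (XX N → ℂ)} (hp : totPair N p = 0) :
    p.1 = 0 := by
  apply Subtype.ext
  refine AddMonoidHom.ext fun γ => ?_
  set x₀ : XX N := ((1 : SL(2, ℤ)) : XX N) with hx₀
  have hout : Quotient.out x₀ ∈ Gamma0 N := by
    have : ((1 : SL(2, ℤ)) : XX N) = ((Quotient.out x₀ : SL(2, ℤ)) : XX N) := by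
      rw [QuotientGroup.out_eq', hx₀]
    rw [QuotientGroup.eq] at this
    simpa using this
  have hfix : ∀ g ∈ Gamma0 N, (g : SL(2, ℤ)) • x₀ = x₀ := by
    intro g hg
    change ((g * 1 : SL(2, ℤ)) : XX N) = ((1 : SL(2, ℤ)) : XX N)
    rw [QuotientGroup.eq]
    simpa using hg
  have h1 := congrFun (tot_eq_zero hp ((Additive.toMul γ : Gamma0 N) : SL(2, ℤ))) x₀
  have hγ : ((Additive.toMul γ : Gamma0 N) : SL(2, ℤ))⁻¹ • x₀ = x₀ :=
    hfix _ (inv_mem (Additive.toMul γ).2)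
  rw [tot, Pi.add_apply, Pi.sub_apply, perm_apply, hγ, sub_self, add_zero, coc] at h1
  have h2 : cocEl ((Additive.toMul γ : Gamma0 N) : SL(2, ℤ)) x₀ =
      (⟨_, hout⟩ : Gamma0 N)⁻¹ * (Additive.toMul γ) * ⟨_, hout⟩ := by
    apply Subtype.ext
    rw [coe_cocEl, hγ]
    rfl
  rw [h2, ofMul_mul, ofMul_mul, map_add, map_add, ofMul_inv, map_neg, neg_add_eq_sub,
    sub_add_cancel] at h1
  exact h1

lemma snd_const {p : parabolicHoms ℂ (Gamma0 N) ℂ × (XX N → ℂ)} (hp : totPair N p = 0)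
    (x y : XX N) : p.2 x = p.2 y := by
  obtain ⟨g, rfl⟩ := MulAction.exists_smul_eq SL(2, ℤ) x y
  have h1 := congrFun (tot_eq_zero hp g) (g • x)
  have h2 : coc p.1.1 g (g • x) = 0 := by
    rw [fst_eq_zero hp]
    rfl
  rw [tot, Pi.add_apply, Pi.sub_apply, perm_apply, h2, zero_add, inv_smul_smul, Pi.zero_apply,
    sub_eq_zero] at h1
  exact h1

instance [NeZero N] : Finite (XX N) := by
  have : (Gamma0 N).FiniteIndex := inferInstance
  infer_instance

instance [NeZero N] : Fintype (XX N) := Fintype.ofFinite _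

section Fin

variable [NeZero N]

instance finiteDimensional_parabolicHoms :
    FiniteDimensional ℂ (parabolicHoms ℂ (Gamma0 N) ℂ) := by
  let i : parabolicHoms ℂ (Gamma0 N) ℂ →ₗ[ℂ] (XX N → ℂ) × (XX N → ℂ) :=
    totPair N ∘ₗ LinearMap.inl ℂ _ _
  refine FiniteDimensional.of_injective i ?_
  rw [← LinearMap.ker_eq_bot, eq_bot_iff]
  intro φ hφ
  exact fst_eq_zero (N := N) (p := (φ, 0)) hφ

omit [NeZero N] in
lemma finrank_ker_totPair : finrank ℂ (LinearMap.ker (totPair N)) ≤ 1 := by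
  let ev : LinearMap.ker (totPair N) →ₗ[ℂ] ℂ :=
    (LinearMap.proj ((1 : SL(2, ℤ)) : XX N)) ∘ₗ LinearMap.snd ℂ _ _ ∘ₗ Submodule.subtype _
  have hev : Function.Injective ev := by
    rw [injective_iff_map_eq_zero]
    rintro ⟨p, hp⟩ h
    apply Subtype.ext
    have h1 : p.2 ((1 : SL(2, ℤ)) : XX N) = 0 := h
    refine Prod.ext (fst_eq_zero hp) (funext fun x => ?_)
    rw [snd_const hp x, h1]
    rfl
  simpa using LinearMap.finrank_le_finrank_of_injective hev

end Fin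

lemma neg_one_smul_XX (x : XX N) : (-1 : SL(2, ℤ)) • x = x := by
  obtain ⟨g, rfl⟩ := QuotientGroup.mk_surjective x
  change ((-1 * g : SL(2, ℤ)) : XX N) = _
  rw [eq_comm, QuotientGroup.eq]
  have : g⁻¹ * (-1 * g) = -1 := by
    rw [neg_one_mul, mul_neg, inv_mul_cancel]
  rw [this]
  simp [Gamma0_mem]

lemma T_pow_smul_XX (x : XX N) : (T ^ N : SL(2, ℤ)) • x = x := by
  obtain ⟨g, rfl⟩ := QuotientGroup.mk_surjective x
  change ((T ^ N * g : SL(2, ℤ)) : XX N) = _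
  rw [Gamma0Comb.mk_eq_mk_iff]
  have h := Gamma0Comb.T_zpow_mul_zero_zero (N : ℤ) g
  have h' := Gamma0Comb.T_zpow_mul_one_zero (N : ℤ) g
  rw [zpow_natCast] at h h'
  rw [h, h']
  push_cast
  simp
  ring

lemma coc_eq_zero_of_trace {φ : Additive (Gamma0 N) →+ ℂ} (hφ : φ ∈ parabolicHoms ℂ (Gamma0 N) ℂ)
    {g : SL(2, ℤ)} (hg : ∀ x : XX N, g • x = x) (htr : (g : Matrix (Fin 2) (Fin 2) ℤ).trace ^ 2 = 4) :
    coc φ g = 0 := by
  ext x
  rw [mem_parabolicHoms_iff] at hφ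
  refine hφ (cocEl g x) ?_
  have h1 : g⁻¹ • x = x := by rw [inv_smul_eq_iff, hg]
  rw [coe_cocEl, h1, Matrix.SpecialLinearGroup.coe_mul, Matrix.trace_mul_comm,
    ← Matrix.SpecialLinearGroup.coe_mul, mul_inv_cancel_left, htr]

lemma tot_eq_zero_of_trace (p : parabolicHoms ℂ (Gamma0 N) ℂ × (XX N → ℂ))
    {g : SL(2, ℤ)} (hg : ∀ x : XX N, g • x = x) (htr : (g : Matrix (Fin 2) (Fin 2) ℤ).trace ^ 2 = 4) :
    tot p g = 0 := by
  rw [tot, coc_eq_zero_of_trace p.1.2 hg htr, zero_add, sub_eq_zero]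
  ext x
  have h1 : g⁻¹ • x = x := by rw [inv_smul_eq_iff, hg]
  rw [perm_apply, h1]

lemma tot_neg_one (p : parabolicHoms ℂ (Gamma0 N) ℂ × (XX N → ℂ)) : tot p (-1) = 0 := by
  apply tot_eq_zero_of_trace p neg_one_smul_XX
  simp

lemma tot_T_pow (p : parabolicHoms ℂ (Gamma0 N) ℂ × (XX N → ℂ)) : tot p (T ^ N) = 0 := by
  apply tot_eq_zero_of_trace p T_pow_smul_XX
  have : ((T ^ N : SL(2, ℤ)) : Matrix (Fin 2) (Fin 2) ℤ) = !![1, (N : ℤ); 0, 1] := by
    have := coe_T_zpow (N : ℤ)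
    rwa [zpow_natCast] at this
  rw [this]
  simp [Matrix.trace_fin_two]

lemma tot_pow (p : parabolicHoms ℂ (Gamma0 N) ℂ × (XX N → ℂ)) (g : SL(2, ℤ)) (n : ℕ) :
    tot p (g ^ n) = ∑ i ∈ Finset.range n, perm (XX N) (g ^ i) (tot p g) := by
  induction n with
  | zero => simp [tot_one]
  | succ n ih => rw [pow_succ, tot_mul, ih, Finset.sum_range_succ]

lemma perm_pow_sub_mem (n : ℕ) (v : XX N → ℂ) :
    perm (XX N) (T ^ n) v - v ∈ subW (XX N) := by
  induction n with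
  | zero => simp
  | succ n ih =>
    rw [pow_succ', perm_mul]
    have h1 : perm (XX N) T (perm (XX N) (T ^ n) v) - perm (XX N) (T ^ n) v ∈ subW (XX N) :=
      ⟨perm (XX N) (T ^ n) v, rfl⟩
    have := add_mem h1 ih
    rwa [sub_add_sub_cancel] at this

lemma tot_T_mem [NeZero N] (p : parabolicHoms ℂ (Gamma0 N) ℂ × (XX N → ℂ)) :
    tot p T ∈ subW (XX N) := by
  have h1 := tot_pow p T N
  rw [tot_T_pow] at h1
  have hN : (N : ℂ) ≠ 0 := Nat.cast_ne_zero.2 (NeZero.ne N)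
  have h2 : tot p T = -((N : ℂ)⁻¹ • ∑ i ∈ Finset.range N, (perm (XX N) (T ^ i) (tot p T) - tot p T)) := by
    rw [Finset.sum_sub_distrib, ← h1, zero_sub, Finset.sum_const, Finset.card_range,
      ← Nat.cast_smul_eq_nsmul ℂ, smul_neg, neg_neg, smul_smul, inv_mul_cancel₀ hN, one_smul]
  rw [h2]
  exact neg_mem (Submodule.smul_mem _ _ (Submodule.sum_mem _ fun i _ => perm_pow_sub_mem i _))

lemma totPair_mem [NeZero N] (p : parabolicHoms ℂ (Gamma0 N) ℂ × (XX N → ℂ)) :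
    totPair N p ∈ subK (XX N) := by
  refine ⟨⟨?_, ?_⟩, ?_⟩
  · rw [SetLike.mem_coe, subA, LinearMap.mem_ker]
    have h := tot_mul p S S
    rw [S_sq, tot_neg_one] at h
    exact h.symm
  · rw [SetLike.mem_coe, subB, LinearMap.mem_ker]
    have h := tot_mul p (US * US) US
    rw [US_cube, tot_neg_one, tot_mul] at h
    exact h.symm
  · rw [SetLike.mem_coe, Submodule.mem_comap, mapL_apply]
    have h := tot_mul p S⁻¹ US
    rw [← T_eq, tot_inv, neg_add_eq_sub, ← map_sub] at h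
    have h2 := tot_T_mem p
    rw [h] at h2
    exact h2

theorem finrank_parabolicHoms_le [NeZero N] :
    (finrank ℂ (parabolicHoms ℂ (Gamma0 N) ℂ) : ℚ) ≤ 2 * ModularCurve.genusFormula N := by
  have h1 := LinearMap.finrank_range_add_finrank_ker (totPair N)
  have h2 : finrank ℂ (LinearMap.range (totPair N)) ≤ finrank ℂ (subK (XX N)) := by
    apply Submodule.finrank_mono
    rintro _ ⟨p, rfl⟩
    exact totPair_mem p
  have h3 := finrank_ker_totPair (N := N)
  rw [Module.finrank_prod, Module.finrank_fintype_fun_eq_card] at h1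
  have h4 : (finrank ℂ (parabolicHoms ℂ (Gamma0 N) ℂ) : ℚ) + Fintype.card (XX N) ≤
      finrank ℂ (subK (XX N)) + 1 := by
    have : finrank ℂ (parabolicHoms ℂ (Gamma0 N) ℂ) + Fintype.card (XX N) ≤
      finrank ℂ (subK (XX N)) + 1 := by omega
    exact_mod_cast this
  have h5 : (finrank ℂ (subK (XX N)) : ℚ) + 1 - Fintype.card (XX N) ≤
      2 + (Fintype.card (XX N) : ℚ) / 6
      - (Nat.card {x : XX N // S • x = x} : ℚ) / 2
      - 2 * (Nat.card {x : XX N // (S * T) • x = x} : ℚ) / 3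
      - ModularCurve.cuspCount N := by
    rw [← Gamma0Comb.card_orbits_T N]
    exact finrank_subK_le (X := XX N) neg_one_smul_XX
  rw [Gamma0Comb.card_fix_S, Gamma0Comb.card_fix_ST, ← Nat.card_eq_fintype_card, Gamma0Comb.card_quot] at h5
  rw [← Nat.card_eq_fintype_card, Gamma0Comb.card_quot] at h4
  rw [ModularCurve.genusFormula]
  linarith

end Fermat.Agent.EichlerShimura
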