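import Mathlib

/-!
# Functions on a finite `SL(2, ℤ)`-set: dimension counts
-/

set_option autoImplicit false

noncomputable section

namespace Fermat.Agent.EichlerShimura

open ModularGroup Module
open scoped MatrixGroups

variable {X : Type*} [MulAction SL(2, ℤ) X]

variable (X) in
/-- the permutation representation on functions -/
def perm (g : SL(2, ℤ)) : (X → ℂ) →ₗ[ℂ] (X → ℂ) := LinearMap.funLeft ℂ ℂ (fun x => g⁻¹ • x)

@[simp] lemma perm_apply (g : SL(2, ℤ)) (v : X → ℂ) (x : X) : perm X g v x = v (g⁻¹ • x) := rfl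

lemma perm_mul (g h : SL(2, ℤ)) (v : X → ℂ) : perm X (g * h) v = perm X g (perm X h v) := by
  ext x; simp [mul_smul]

@[simp] lemma perm_one (v : X → ℂ) : perm X 1 v = v := by ext x; simp

lemma perm_pow (g : SL(2, ℤ)) (n : ℕ) (v : X → ℂ) : perm X (g ^ n) v = ((perm X g) ^ n) v := by
  induction n with
  | zero => simp
  | succ n ih => rw [pow_succ', perm_mul, ih, pow_succ', Module.End.mul_apply]

lemma perm_inj (g : SL(2, ℤ)) : Function.Injective (perm X g) := by
  intro v w h
  have := congrArg (perm X g⁻¹) h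
  rwa [← perm_mul, ← perm_mul, inv_mul_cancel, perm_one, perm_one] at this

/-- `U = S * T`. -/
def US : SL(2, ℤ) := S * T

lemma S_sq : (S * S : SL(2, ℤ)) = -1 := by decide
lemma US_cube : (US * US * US : SL(2, ℤ)) = -1 := by decide
lemma T_eq : (T : SL(2, ℤ)) = S⁻¹ * US := by rw [US, inv_mul_cancel_left]

lemma closure_S_US : Subgroup.closure ({S, US} : Set SL(2, ℤ)) = ⊤ := by
  rw [eq_top_iff, ← SpecialLinearGroup.SL2Z_generators, Subgroup.closure_le]
  have hS : S ∈ Subgroup.closure ({S, US} : Set SL(2, ℤ)) := Subgroup.subset_closure (by simp)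
  have hU : US ∈ Subgroup.closure ({S, US} : Set SL(2, ℤ)) := Subgroup.subset_closure (by simp)
  rintro g (rfl | rfl)
  · exact hS
  · rw [SetLike.mem_coe, T_eq]; exact mul_mem (inv_mem hS) hU

variable (X) in
/-- kernel of `1 + S` -/
def subA : Submodule ℂ (X → ℂ) := LinearMap.ker (LinearMap.id + perm X S)

variable (X) in
/-- kernel of `1 + U + U²` -/
def subB : Submodule ℂ (X → ℂ) :=
  LinearMap.ker (LinearMap.id + perm X US + perm X (US * US))

variable (X) in
/-- range of `T - 1` -/
def subW : Submodule ℂ (X → ℂ) := LinearMap.range (perm X T - LinearMap.id)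

variable (X) in
/-- `(a, b) ↦ S⁻¹ (b - a)` -/
def mapL : ((X → ℂ) × (X → ℂ)) →ₗ[ℂ] (X → ℂ) :=
  perm X S⁻¹ ∘ₗ (LinearMap.snd ℂ _ _ - LinearMap.fst ℂ _ _)

lemma mapL_apply (p : (X → ℂ) × (X → ℂ)) : mapL X p = perm X S⁻¹ (p.2 - p.1) := rfl

variable (X) in
def subK : Submodule ℂ ((X → ℂ) × (X → ℂ)) :=
  (subA X).prod (subB X) ⊓ (subW X).comap (mapL X)

section Dim

variable [Fintype X]

lemma trace_perm (g : SL(2,ℤ)) :
    LinearMap.trace ℂ (X → ℂ) (perm X g) = (Nat.card {x : X // g • x = x} : ℂ) := by
  classical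
  rw [LinearMap.trace_eq_matrix_trace ℂ (Pi.basisFun ℂ X), Matrix.trace]
  simp only [Matrix.diag_apply, LinearMap.toMatrix_apply, Pi.basisFun_apply, Pi.basisFun_repr,
    perm_apply, Pi.single_apply]
  rw [Finset.sum_boole, Nat.card_eq_fintype_card, Fintype.card_subtype]
  congr 2
  ext x
  simp only [Finset.mem_filter, Finset.mem_univ, true_and]
  rw [inv_smul_eq_iff, eq_comm]

lemma two_mul_finrank_subA (hneg : ∀ x : X, (-1 : SL(2, ℤ)) • x = x) :
    (2 * finrank ℂ (subA X) : ℂ) = Fintype.card X - Nat.card {x : X // S • x = x} := by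
  have hproj : LinearMap.IsProj (subA X) ((2 : ℂ)⁻¹ • (LinearMap.id - perm X S)) := by
    have hSS : ∀ v : X → ℂ, perm X S (perm X S v) = v := by
      intro v
      rw [← perm_mul, S_sq]
      ext x
      rw [perm_apply, inv_neg, inv_one, hneg]
    refine ⟨fun v => ?_, fun v hv => ?_⟩
    · rw [subA, LinearMap.mem_ker]
      simp only [LinearMap.smul_apply, LinearMap.sub_apply, LinearMap.id_coe, id_eq,
        LinearMap.add_apply, map_smul, map_sub, hSS]
      module
    · rw [subA, LinearMap.mem_ker] at hv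
      simp only [LinearMap.add_apply, LinearMap.id_coe, id_eq] at hv
      have : perm X S v = -v := by rw [← sub_eq_zero, sub_neg_eq_add, add_comm]; exact hv
      simp only [LinearMap.smul_apply, LinearMap.sub_apply, LinearMap.id_coe, id_eq, this]
      rw [sub_neg_eq_add, ← two_smul ℂ v, smul_smul]
      norm_num
  have h1 := hproj.trace
  rw [map_smul, map_sub, trace_perm, show (LinearMap.id : (X → ℂ) →ₗ[ℂ] (X → ℂ)) = 1 from rfl,
    LinearMap.trace_one, Module.finrank_fintype_fun_eq_card] at h1
  rw [← h1]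
  simp

lemma three_mul_finrank_subB (hneg : ∀ x : X, (-1 : SL(2, ℤ)) • x = x) :
    (3 * finrank ℂ (subB X) : ℂ) = 2 * Fintype.card X - 2 * Nat.card {x : X // (S * T) • x = x} := by
  have hUUU : ∀ v : X → ℂ, perm X US (perm X US (perm X US v)) = v := by
    intro v
    rw [← perm_mul, ← perm_mul, US_cube]
    ext x
    rw [perm_apply, inv_neg, inv_one, hneg]
  have hproj : LinearMap.IsProj (subB X)
      (LinearMap.id - (3 : ℂ)⁻¹ • (LinearMap.id + perm X US + perm X (US * US))) := by
    refine ⟨fun v => ?_, fun v hv => ?_⟩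
    · rw [subB, LinearMap.mem_ker]
      simp only [LinearMap.smul_apply, LinearMap.sub_apply, LinearMap.id_coe, id_eq,
        LinearMap.add_apply, map_smul, map_sub, map_add, perm_mul, hUUU]
      module
    · rw [subB, LinearMap.mem_ker] at hv
      simp only [LinearMap.sub_apply, LinearMap.smul_apply, hv]
      simp
  have h1 := hproj.trace
  have hcard : Nat.card {x : X // (US * US) • x = x} = Nat.card {x : X // (S * T) • x = x} := by
    refine Nat.card_congr (Equiv.subtypeEquivRight fun x => ?_)
    change (US * US) • x = x ↔ US • x = x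
    have h3 : (US * US * US) • x = x := by rw [US_cube, hneg]
    rw [mul_smul] at h3
    constructor
    · intro h
      conv_rhs at h => rw [← h3]
      have h4 := MulAction.injective _ h
      exact h4.symm
    · intro h
      rw [h] at h3; exact h3
  rw [map_sub, map_smul, map_add, map_add, trace_perm, trace_perm,
    show (LinearMap.id : (X → ℂ) →ₗ[ℂ] (X → ℂ)) = 1 from rfl,
    LinearMap.trace_one, Module.finrank_fintype_fun_eq_card, hcard] at h1
  rw [← h1]
  change 3 * ((Fintype.card X : ℂ) - (3 : ℂ)⁻¹ * (Fintype.card X + Nat.card {x : X // (S * T) • x = x} +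
    Nat.card {x : X // (S * T) • x = x})) = _
  ring

variable (X) in
/-- functions invariant under `T` -/
def tInv : Submodule ℂ (X → ℂ) := LinearMap.ker (perm X T - LinearMap.id)

omit [Fintype X] in
lemma mem_tInv {v : X → ℂ} : v ∈ tInv X ↔ ∀ x, v (T • x) = v x := by
  rw [tInv, LinearMap.mem_ker, LinearMap.sub_apply, sub_eq_zero, funext_iff]
  constructor
  · intro h x
    have := h (T • x)
    simpa using this.symm
  · intro h x
    have := h (T⁻¹ • x)
    rw [smul_inv_smul] at this
    simpa using this.symm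

omit [Fintype X] in
lemma tInv_zpow {v : X → ℂ} (hv : v ∈ tInv X) (n : ℤ) (x : X) : v (T ^ n • x) = v x := by
  rw [mem_tInv] at hv
  induction n using Int.induction_on generalizing x with
  | zero => simp
  | succ n ih => rw [zpow_add_one, mul_smul, ih, hv x]
  | pred n ih =>
    rw [zpow_sub_one, mul_smul, ih]
    have := hv (T⁻¹ • x)
    rw [smul_inv_smul] at this
    exact this.symm

lemma finrank_tInv : finrank ℂ (tInv X) =
    Nat.card (MulAction.orbitRel.Quotient (Subgroup.zpowers T) X) := by
  classical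
  let e : (MulAction.orbitRel.Quotient (Subgroup.zpowers T) X → ℂ) ≃ₗ[ℂ] tInv X :=
    { toFun := fun g => ⟨fun x => g (Quotient.mk'' x), mem_tInv.2 fun x => by
        refine congrArg g (Quotient.sound' ?_)
        exact ⟨⟨T, Subgroup.mem_zpowers _⟩, rfl⟩⟩
      invFun := fun v q => Quotient.liftOn' q v.1 (by
        rintro a b ⟨⟨g, n, rfl⟩, rfl⟩
        exact tInv_zpow v.2 n b)
      map_add' := fun _ _ => rfl
      map_smul' := fun _ _ => rfl
      left_inv := fun g => by
        ext q
        induction q using Quotient.inductionOn' with | _ x => rfl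
      right_inv := fun v => by
        ext x; rfl }
  rw [← e.finrank_eq]
  have : Finite (MulAction.orbitRel.Quotient (Subgroup.zpowers T) X) := Quotient.finite _
  have := Fintype.ofFinite (MulAction.orbitRel.Quotient (Subgroup.zpowers T) X)
  rw [Module.finrank_pi, Nat.card_eq_fintype_card]

lemma finrank_subW : finrank ℂ (subW X) +
    Nat.card (MulAction.orbitRel.Quotient (Subgroup.zpowers T) X) = Fintype.card X := by
  rw [← finrank_tInv, subW, tInv, LinearMap.finrank_range_add_finrank_ker,
    Module.finrank_fintype_fun_eq_card]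

/-- general dimension count -/
lemma finrank_inf_comap {E F : Type*} [AddCommGroup E] [Module ℂ E] [AddCommGroup F] [Module ℂ F]
    [FiniteDimensional ℂ E] [FiniteDimensional ℂ F] (D : Submodule ℂ E) (W : Submodule ℂ F)
    (L : E →ₗ[ℂ] F) :
    finrank ℂ (D ⊓ W.comap L : Submodule ℂ E) + finrank ℂ (D.map L) ≤ finrank ℂ D + finrank ℂ W := by
  -- restrict `L` to `D` and `D ⊓ comap L W`
  have h1 := LinearMap.finrank_range_add_finrank_ker (L.domRestrict D)
  have h2 := LinearMap.finrank_range_add_finrank_ker (L.domRestrict (D ⊓ W.comap L))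
  have h3 : LinearMap.range (L.domRestrict D) = D.map L := by
    rw [LinearMap.range_domRestrict]
  have h4 : finrank ℂ (LinearMap.range (L.domRestrict (D ⊓ W.comap L))) ≤ finrank ℂ W := by
    apply Submodule.finrank_mono
    rintro _ ⟨x, rfl⟩
    exact x.2.2
  have h5 : finrank ℂ (LinearMap.ker (L.domRestrict (D ⊓ W.comap L))) ≤
      finrank ℂ (LinearMap.ker (L.domRestrict D)) := by
    let i : LinearMap.ker (L.domRestrict (D ⊓ W.comap L)) →ₗ[ℂ] LinearMap.ker (L.domRestrict D) :=
      LinearMap.codRestrict _ (Submodule.inclusion inf_le_left ∘ₗ Submodule.subtype _) (by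
        rintro ⟨x, hx⟩
        exact hx)
    apply LinearMap.finrank_le_finrank_of_injective (f := i)
    intro x y hxy
    have := congrArg (fun z => ((z : D) : E)) (congrArg Subtype.val hxy)
    exact Subtype.ext (Subtype.ext this)
  rw [h3] at h1
  omega

variable (X) in
/-- sum of ranges of `1 - S` and `1 - U` -/
def subR : Submodule ℂ (X → ℂ) :=
  LinearMap.range (perm X S - LinearMap.id) ⊔ LinearMap.range (perm X US - LinearMap.id)

omit [Fintype X] in
lemma sub_mem_subR (g : SL(2, ℤ)) (v : X → ℂ) : perm X g v - v ∈ subR X := by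
  have hg : g ∈ Subgroup.closure ({S, US} : Set SL(2, ℤ)) := by rw [closure_S_US]; trivial
  induction hg using Subgroup.closure_induction generalizing v with
  | mem g hg =>
    rcases hg with rfl | rfl
    · exact Submodule.mem_sup_left ⟨v, rfl⟩
    · exact Submodule.mem_sup_right ⟨v, rfl⟩
  | one => simp
  | mul g h _ _ h1 h2 =>
    rw [perm_mul]
    have := add_mem (h1 (perm X h v)) (h2 v)
    rwa [sub_add_sub_cancel] at this
  | inv g _ h =>
    have := neg_mem (h (perm X g⁻¹ v))
    rwa [← perm_mul, mul_inv_cancel, perm_one, neg_sub] at this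

lemma card_le_finrank_subR [MulAction.IsPretransitive SL(2, ℤ) X] :
    Fintype.card X ≤ finrank ℂ (subR X) + 1 := by
  classical
  rcases isEmpty_or_nonempty X with hX | ⟨⟨x₀⟩⟩
  · simp [Fintype.card_eq_zero]
  have hdelta (g : SL(2, ℤ)) : perm X g (Pi.single x₀ (1 : ℂ)) = Pi.single (g • x₀) 1 := by
    ext x
    simp only [perm_apply, Pi.single_apply, inv_smul_eq_iff]
  have htop : subR X ⊔ Submodule.span ℂ {Pi.single x₀ (1 : ℂ)} = ⊤ := by
    rw [eq_top_iff, ← (Pi.basisFun ℂ X).span_eq, Submodule.span_le]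
    rintro _ ⟨x, rfl⟩
    obtain ⟨g, rfl⟩ := MulAction.exists_smul_eq SL(2, ℤ) x₀ x
    rw [Pi.basisFun_apply, SetLike.mem_coe, ← hdelta]
    have h1 : perm X g (Pi.single x₀ (1 : ℂ)) - Pi.single x₀ (1 : ℂ) ∈
        subR X ⊔ Submodule.span ℂ {Pi.single x₀ (1 : ℂ)} :=
      Submodule.mem_sup_left (sub_mem_subR g _)
    have h2 : (Pi.single x₀ (1 : ℂ) : X → ℂ) ∈ subR X ⊔ Submodule.span ℂ {Pi.single x₀ (1 : ℂ)} :=
      Submodule.mem_sup_right (Submodule.mem_span_singleton_self _)
    have := add_mem h1 h2
    rwa [sub_add_cancel] at this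
  have h1 := Submodule.finrank_add_le_finrank_add_finrank (subR X)
    (Submodule.span ℂ {Pi.single x₀ (1 : ℂ)})
  rw [htop, finrank_top, Module.finrank_fintype_fun_eq_card] at h1
  have h2 := finrank_span_singleton (K := ℂ) (v := (Pi.single x₀ (1 : ℂ) : X → ℂ)) (by
    intro h
    have := congrFun h x₀
    simp at this)
  omega

lemma card_le_finrank_map [MulAction.IsPretransitive SL(2, ℤ) X]
    (hneg : ∀ x : X, (-1 : SL(2, ℤ)) • x = x) :
    Fintype.card X ≤ finrank ℂ (((subA X).prod (subB X)).map (mapL X)) + 1 := by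
  refine card_le_finrank_subR.trans (Nat.add_le_add_right ?_ 1)
  have h1 : subR X ≤ ((subA X).prod (subB X)).map
      (LinearMap.snd ℂ (X → ℂ) (X → ℂ) - LinearMap.fst ℂ (X → ℂ) (X → ℂ)) := by
    refine sup_le ?_ ?_
    · rintro _ ⟨v, rfl⟩
      refine ⟨(v - perm X S v, 0), ⟨?_, zero_mem _⟩, ?_⟩
      · rw [subA, SetLike.mem_coe, LinearMap.mem_ker]
        have hSS : perm X S (perm X S v) = v := by
          rw [← perm_mul, S_sq]
          ext x
          rw [perm_apply, inv_neg, inv_one, hneg]
        simp only [LinearMap.add_apply, LinearMap.id_coe, id_eq, map_sub, hSS]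
        abel
      · simp
    · rintro _ ⟨v, rfl⟩
      refine ⟨(0, perm X US v - v), ⟨zero_mem _, ?_⟩, ?_⟩
      · rw [subB, SetLike.mem_coe, LinearMap.mem_ker]
        have hUUU : perm X US (perm X US (perm X US v)) = v := by
          rw [← perm_mul, ← perm_mul, US_cube]
          ext x
          rw [perm_apply, inv_neg, inv_one, hneg]
        simp only [LinearMap.add_apply, LinearMap.id_coe, id_eq, map_sub, perm_mul, hUUU]
        abel
      · simp
  refine (Submodule.finrank_mono h1).trans ?_
  rw [mapL, Submodule.map_comp]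
  exact (Submodule.equivMapOfInjective _ (perm_inj S⁻¹) _).finrank_eq.le

/-- upper bound for the dimension of `K`. -/
theorem finrank_subK_le [MulAction.IsPretransitive SL(2, ℤ) X]
    (hneg : ∀ x : X, (-1 : SL(2, ℤ)) • x = x) :
    (finrank ℂ (subK X) : ℚ) + 1 - Fintype.card X ≤ 2 + (Fintype.card X : ℚ) / 6
      - (Nat.card {x : X // S • x = x} : ℚ) / 2
      - 2 * (Nat.card {x : X // (S * T) • x = x} : ℚ) / 3
      - Nat.card (MulAction.orbitRel.Quotient (Subgroup.zpowers T) X) := by
  have hA : (2 * finrank ℂ (subA X) : ℚ) = Fintype.card X - Nat.card {x : X // S • x = x} := by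
    have := two_mul_finrank_subA (X := X) hneg
    exact_mod_cast this
  have hB : (3 * finrank ℂ (subB X) : ℚ) =
      2 * Fintype.card X - 2 * Nat.card {x : X // (S * T) • x = x} := by
    have := three_mul_finrank_subB (X := X) hneg
    exact_mod_cast this
  have hW : (finrank ℂ (subW X) : ℚ) +
      Nat.card (MulAction.orbitRel.Quotient (Subgroup.zpowers T) X) = Fintype.card X := by
    exact_mod_cast finrank_subW (X := X)
  have hK : (finrank ℂ (subK X) : ℚ) + finrank ℂ (((subA X).prod (subB X)).map (mapL X)) ≤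
      finrank ℂ ((subA X).prod (subB X)) + finrank ℂ (subW X) := by
    exact_mod_cast finrank_inf_comap ((subA X).prod (subB X)) (subW X) (mapL X)
  have hM : (Fintype.card X : ℚ) ≤ finrank ℂ (((subA X).prod (subB X)).map (mapL X)) + 1 := by
    exact_mod_cast card_le_finrank_map hneg
  have hprod : (finrank ℂ ((subA X).prod (subB X)) : ℚ) ≤ finrank ℂ (subA X) + finrank ℂ (subB X) := by
    have : finrank ℂ ((subA X).prod (subB X)) ≤ finrank ℂ (subA X) + finrank ℂ (subB X) := by
      rw [← Module.finrank_prod]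
      let i : ((subA X).prod (subB X)) →ₗ[ℂ] (subA X × subB X) :=
        { toFun := fun x => (⟨x.1.1, x.2.1⟩, ⟨x.1.2, x.2.2⟩)
          map_add' := fun _ _ => rfl
          map_smul' := fun _ _ => rfl }
      apply LinearMap.finrank_le_finrank_of_injective (f := i)
      intro x y hxy
      have h1 := congrArg (fun z => (z.1 : X → ℂ)) hxy
      have h2 := congrArg (fun z => (z.2 : X → ℂ)) hxy
      exact Subtype.ext (Prod.ext h1 h2)
    exact_mod_cast this
  linarith

end Dim

end Fermat.Agent.EichlerShimura
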