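import Fermat.Agent.EichlerShimura.Forms

set_option autoImplicit false

noncomputable section

namespace Fermat.Agent.EichlerShimura

open UpperHalfPlane hiding I
open Complex Filter Topology Function Metric Asymptotics
open scoped Real Manifold MatrixGroups ModularForm Pointwise

/-- monomial functions -/
def mono (j : ℕ) : ℍ → ℂ := fun z => (z : ℂ) ^ j

/-- integral polynomial functions of degree `≤ m` on the upper half plane. -/
def polyFn (m : ℕ) : Submodule ℤ (ℍ → ℂ) := Submodule.span ℤ (mono '' Set.Iic m)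

theorem mono_mem {j m : ℕ} (h : j ≤ m) : mono j ∈ polyFn m :=
  Submodule.subset_span ⟨j, h, rfl⟩

theorem polyFn_mono {m m' : ℕ} (h : m ≤ m') : polyFn m ≤ polyFn m' :=
  Submodule.span_mono (Set.image_mono (Set.Iic_subset_Iic.mpr h))

theorem polyFn_fg (m : ℕ) : (polyFn m).FG :=
  Submodule.fg_span ((Set.finite_Iic m).image _)

theorem linear_mul_mem {m : ℕ} {p : ℍ → ℂ} (hp : p ∈ polyFn m) (a b : ℤ) :
    (fun z : ℍ => ((a : ℂ) * z + b) * p z) ∈ polyFn (m + 1) := by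
  induction hp using Submodule.span_induction with
  | mem x hx =>
    obtain ⟨j, hj, rfl⟩ := hx
    have hj' : j ≤ m := hj
    have e : (fun z : ℍ => ((a : ℂ) * z + b) * mono j z) = a • mono (j + 1) + b • mono j := by
      funext z
      simp only [mono, Pi.add_apply, zsmul_eq_mul, Pi.mul_apply, Pi.intCast_apply]
      ring
    rw [e]
    exact add_mem (Submodule.smul_mem _ _ (mono_mem (by omega)))
      (Submodule.smul_mem _ _ (mono_mem (by omega)))
  | zero =>
    have e : (fun z : ℍ => ((a : ℂ) * z + b) * (0 : ℍ → ℂ) z) = 0 := by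
      funext z; simp
    rw [e]; exact zero_mem _
  | add x y _ _ hx hy =>
    have e : (fun z : ℍ => ((a : ℂ) * z + b) * (x + y) z) =
        (fun z : ℍ => ((a : ℂ) * z + b) * x z) + (fun z : ℍ => ((a : ℂ) * z + b) * y z) := by
      funext z; simp only [Pi.add_apply]; ring
    rw [e]; exact add_mem hx hy
  | smul c x _ hx =>
    have e : (fun z : ℍ => ((a : ℂ) * z + b) * (c • x) z) =
        c • (fun z : ℍ => ((a : ℂ) * z + b) * x z) := by
      funext z; simp only [Pi.smul_apply, zsmul_eq_mul]; ring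
    rw [e]; exact Submodule.smul_mem _ _ hx

theorem linear_pow_mul_mem {m : ℕ} {p : ℍ → ℂ} (hp : p ∈ polyFn m) (a b : ℤ) (j : ℕ) :
    (fun z : ℍ => ((a : ℂ) * z + b) ^ j * p z) ∈ polyFn (m + j) := by
  induction j with
  | zero => simpa using hp
  | succ j ih =>
    have := linear_mul_mem ih a b
    refine (congrArg (· ∈ polyFn (m + j + 1)) ?_).mp this
    funext z
    ring

theorem linear_pow_mem (a b : ℤ) (j : ℕ) :
    (fun z : ℍ => ((a : ℂ) * z + b) ^ j) ∈ polyFn j := by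
  have := linear_pow_mul_mem (m := 0) (p := mono 0) (mono_mem le_rfl) a b j
  simpa [mono] using this

theorem linear_pow_mul_linear_pow_mem (a b c d : ℤ) (i j : ℕ) :
    (fun z : ℍ => ((a : ℂ) * z + b) ^ i * ((c : ℂ) * z + d) ^ j) ∈ polyFn (i + j) := by
  have := linear_pow_mul_mem (linear_pow_mem c d j) a b i
  rwa [add_comm j i] at this

theorem polyFn_slash {m : ℕ} {p : ℍ → ℂ} (hp : p ∈ polyFn m) (γ : SL(2, ℤ)) :
    p ∣[(-(m : ℤ))] γ ∈ polyFn m := by
  induction hp using Submodule.span_induction with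
  | mem x hx =>
    obtain ⟨j, hj, rfl⟩ := hx
    have hj' : j ≤ m := hj
    have e : mono j ∣[(-(m : ℤ))] γ = (fun z : ℍ => ((γ 0 0 : ℤ) * (z : ℂ) + (γ 0 1 : ℤ)) ^ j *
        ((γ 1 0 : ℤ) * (z : ℂ) + (γ 1 1 : ℤ)) ^ (m - j)) := by
      funext z
      rw [ModularForm.SL_slash_apply, mono, neg_neg, zpow_natCast]
      have hd : denom (γ : GL (Fin 2) ℝ) z = ((γ 1 0 : ℤ) * (z : ℂ) + (γ 1 1 : ℤ)) := by
        simp [denom]
      have hn : ((γ • z : ℍ) : ℂ) = ((γ 0 0 : ℤ) * (z : ℂ) + (γ 0 1 : ℤ)) / denom (γ : GL (Fin 2) ℝ) z := by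
        rw [UpperHalfPlane.coe_specialLinearGroup_apply]
        simp [hd]
      have hne : denom (γ : GL (Fin 2) ℝ) z ≠ 0 := denom_ne_zero _ _
      rw [hn, ← hd, div_pow]
      rw [← Nat.sub_add_cancel hj', pow_add, Nat.add_sub_cancel]
      field_simp
    rw [e]
    have := linear_pow_mul_linear_pow_mem (γ 0 0) (γ 0 1) (γ 1 0) (γ 1 1) j (m - j)
    rwa [Nat.add_sub_cancel' hj'] at this
  | zero => rw [SlashAction.zero_slash]; exact zero_mem _
  | add x y _ _ hx hy => rw [SlashAction.add_slash]; exact add_mem hx hy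
  | smul c x _ hx => rw [ModularForm.SL_smul_slash]; exact Submodule.smul_mem _ _ hx

theorem polyFn_hecke {p : ℕ} (hp : p ≠ 0) (b m : ℕ) {P : ℍ → ℂ} (hP : P ∈ polyFn m) :
    ∃ P' ∈ polyFn m, ∀ z : ℍ, P' (ModularForm.heckeMatrix p b • z) = P z := by
  induction hP using Submodule.span_induction with
  | mem x hx =>
    obtain ⟨j, hj, rfl⟩ := hx
    have hj' : j ≤ m := hj
    refine ⟨_, polyFn_mono hj' (linear_pow_mem p (-b) j), fun z => ?_⟩
    rw [ModularForm.coe_heckeMatrix_smul hp, mono]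
    have hp' : (p : ℂ) ≠ 0 := by exact_mod_cast hp
    congr 1
    push_cast
    field_simp
    ring
  | zero => exact ⟨0, zero_mem _, fun z => rfl⟩
  | add x y _ _ hx hy =>
    obtain ⟨x', hx', hx⟩ := hx
    obtain ⟨y', hy', hy⟩ := hy
    exact ⟨x' + y', add_mem hx' hy', fun z => by simp [hx, hy]⟩
  | smul c x _ hx =>
    obtain ⟨x', hx', hx⟩ := hx
    exact ⟨c • x', Submodule.smul_mem _ _ hx', fun z => by simp [hx]⟩

theorem polyFn_heckeDiag {p : ℕ} (hp : p ≠ 0) (m : ℕ) {P : ℍ → ℂ} (hP : P ∈ polyFn m) :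
    ∃ P' ∈ polyFn m, ∀ z : ℍ, P' (ModularForm.heckeDiagMatrix p • z) = (p : ℂ) ^ m * P z := by
  induction hP using Submodule.span_induction with
  | mem x hx =>
    obtain ⟨j, hj, rfl⟩ := hx
    have hj' : j ≤ m := hj
    refine ⟨((p : ℤ) ^ (m - j)) • mono j, Submodule.smul_mem _ _ (mono_mem hj'), fun z => ?_⟩
    simp only [Pi.smul_apply, mono, zsmul_eq_mul]
    rw [ModularForm.coe_heckeDiagMatrix_smul hp]
    push_cast
    rw [mul_pow, ← mul_assoc, ← pow_add, Nat.sub_add_cancel hj']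
  | zero => exact ⟨0, zero_mem _, fun z => by simp⟩
  | add x y _ _ hx hy =>
    obtain ⟨x', hx', hx⟩ := hx
    obtain ⟨y', hy', hy⟩ := hy
    exact ⟨x' + y', add_mem hx' hy', fun z => by simp [hx, hy, mul_add]⟩
  | smul c x _ hx =>
    obtain ⟨x', hx', hx⟩ := hx
    exact ⟨c • x', Submodule.smul_mem _ _ hx', fun z => by simp [hx]; ring⟩

theorem slash_mul_hecke {p : ℕ} (hp : p ≠ 0) (b m : ℕ) {P : ℍ → ℂ} (hP : P ∈ polyFn m) :
    ∃ P' ∈ polyFn m, ∀ f : ℍ → ℂ, (f ∣[((m : ℤ) + 2)] ModularForm.heckeMatrix p b) * P =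
      (f * P') ∣[(2 : ℤ)] ModularForm.heckeMatrix p b := by
  obtain ⟨P', hP', h⟩ := polyFn_hecke hp b m hP
  refine ⟨P', hP', fun f => ?_⟩
  funext z
  rw [Pi.mul_apply, ModularForm.slash_heckeMatrix_apply _ hp, ModularForm.slash_heckeMatrix_apply _ hp,
    Pi.mul_apply, h]
  ring

theorem slash_mul_heckeDiag {p : ℕ} (hp : p ≠ 0) (m : ℕ) {P : ℍ → ℂ} (hP : P ∈ polyFn m) :
    ∃ P' ∈ polyFn m, ∀ f : ℍ → ℂ, (f ∣[((m : ℤ) + 2)] ModularForm.heckeDiagMatrix p) * P =
      (f * P') ∣[(2 : ℤ)] ModularForm.heckeDiagMatrix p := by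
  obtain ⟨P', hP', h⟩ := polyFn_heckeDiag hp m hP
  refine ⟨P', hP', fun f => ?_⟩
  funext z
  rw [Pi.mul_apply, ModularForm.slash_heckeDiagMatrix_apply _ hp,
    ModularForm.slash_heckeDiagMatrix_apply _ hp, Pi.mul_apply, h,
    show (m : ℤ) + 2 - 1 = ((m + 1 : ℕ) : ℤ) by push_cast; ring, show (2 : ℤ) - 1 = 1 by norm_num,
    zpow_natCast, zpow_one, pow_succ]
  ring

/-! ### products of cusp forms with polynomials -/

theorem good_mul_poly {M : ℕ} (hM : 0 < M) {f : ℍ → ℂ} {m : ℕ}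
    (hf : ∀ γ : SL(2, ℤ), IsQ M (f ∣[((m : ℤ) + 2)] γ)) {P : ℍ → ℂ} (hP : P ∈ polyFn m) :
    Good (f * P) := by
  have hM' : (0 : ℝ) < M := by exact_mod_cast hM
  intro δ
  have e1 : (f * P) ∣[(2 : ℤ)] δ = (f ∣[((m : ℤ) + 2)] δ) * (P ∣[(-(m : ℤ))] δ) := by
    rw [← ModularForm.mul_slash_SL2]
    congr 1
    ring
  rw [e1]
  have hP' := polyFn_slash hP δ
  generalize P ∣[(-(m : ℤ))] δ = Q at hP'
  have hg := hf δ
  generalize f ∣[((m : ℤ) + 2)] δ = g at hg
  induction hP' using Submodule.span_induction with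
  | mem x hx =>
    obtain ⟨j, hj, rfl⟩ := hx
    have := hg.hasPrim_pow hM' 0 j
    simpa [mono] using! this
  | zero => rw [mul_zero]; exact HasPrim.zero
  | add x y _ _ hx hy => rw [mul_add]; exact hx.add hy
  | smul c x _ hx =>
    have : g * (c • x) = (c : ℂ) • (g * x) := by
      funext z
      simp only [Pi.mul_apply, Pi.smul_apply, zsmul_eq_mul, smul_eq_mul, Pi.intCast_apply]
      ring
    rw [this]
    exact hx.smul _

end Fermat.Agent.EichlerShimura
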