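import Fermat.Agent.EichlerShimura.Primitive

set_option autoImplicit false

noncomputable section

namespace Fermat.Agent.EichlerShimura

open UpperHalfPlane hiding I
open Complex Filter Topology Function Metric
open scoped Real Manifold MatrixGroups ModularForm

/-- `F` is a holomorphic primitive of `φ`. -/
def IsAnti (φ F : ℍ → ℂ) : Prop :=
  ∀ τ : ℍ, HasDerivAt (F ∘ ofComplex) (φ τ) τ

/-- `F` is the holomorphic primitive of `φ` tending to zero along all vertical lines. -/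
structure IsPrim (φ F : ℍ → ℂ) : Prop where
  deriv : IsAnti φ F
  lim : ∀ z : ℂ, Tendsto (fun t : ℝ => F (ofComplex (z + t * I))) atTop (𝓝 0)

theorem IsAnti.sub_const {φ F F' : ℍ → ℂ} (h : IsAnti φ F) (h' : IsAnti φ F') (z w : ℍ) :
    F z - F' z = F w - F' w := by
  have hopen : IsOpen {z : ℂ | 0 < z.im} := isOpen_lt continuous_const Complex.continuous_im
  have hconn : IsPreconnected {z : ℂ | 0 < z.im} := (convex_halfSpace_im_gt 0).isPreconnected
  have hd : ∀ u : ℂ, 0 < u.im → HasDerivAt (fun u => (F ∘ ofComplex) u - (F' ∘ ofComplex) u) 0 u := by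
    intro u hu
    have := (h ⟨u, hu⟩).sub (h' ⟨u, hu⟩)
    rw [sub_self] at this
    exact this
  have := hopen.is_const_of_deriv_eq_zero hconn
    (f := fun u => (F ∘ ofComplex) u - (F' ∘ ofComplex) u)
    (fun u hu => (hd u hu).differentiableAt.differentiableWithinAt)
    (fun u hu => (hd u hu).deriv) z.im_pos w.im_pos
  simpa using this

theorem IsAnti.add {φ ψ F G : ℍ → ℂ} (h : IsAnti φ F) (h' : IsAnti ψ G) :
    IsAnti (φ + ψ) (F + G) := fun τ => (h τ).add (h' τ)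

theorem IsAnti.smul {φ F : ℍ → ℂ} (c : ℂ) (h : IsAnti φ F) : IsAnti (c • φ) (c • F) :=
  fun τ => (h τ).const_mul c

theorem IsPrim.add {φ ψ F G : ℍ → ℂ} (h : IsPrim φ F) (h' : IsPrim ψ G) :
    IsPrim (φ + ψ) (F + G) :=
  ⟨h.deriv.add h'.deriv, fun z => by simpa using (h.lim z).add (h'.lim z)⟩

theorem IsPrim.smul {φ F : ℍ → ℂ} (c : ℂ) (h : IsPrim φ F) : IsPrim (c • φ) (c • F) :=
  ⟨h.deriv.smul c, fun z => by simpa using (h.lim z).const_mul c⟩

theorem IsPrim.zero : IsPrim (0 : ℍ → ℂ) 0 :=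
  ⟨fun _ => hasDerivAt_const _ _, fun _ => tendsto_const_nhds⟩

theorem IsPrim.unique {φ F F' : ℍ → ℂ} (h : IsPrim φ F) (h' : IsPrim φ F') : F = F' := by
  funext τ
  have h1 : ∀ t : ℝ, 0 ≤ t → F (ofComplex ((τ : ℂ) + t * I)) - F' (ofComplex ((τ : ℂ) + t * I)) =
      F τ - F' τ := fun t _ => h.deriv.sub_const h'.deriv _ _
  have h2 : Tendsto (fun t : ℝ => F (ofComplex ((τ : ℂ) + t * I)) -
      F' (ofComplex ((τ : ℂ) + t * I))) atTop (𝓝 0) := by
    simpa using (h.lim τ).sub (h'.lim τ)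
  have h3 : Tendsto (fun t : ℝ => F (ofComplex ((τ : ℂ) + t * I)) -
      F' (ofComplex ((τ : ℂ) + t * I))) atTop (𝓝 (F τ - F' τ)) := by
    refine tendsto_const_nhds.congr' ?_
    filter_upwards [eventually_ge_atTop 0] with t ht
    exact (h1 t ht).symm
  exact sub_eq_zero.mp (tendsto_nhds_unique h3 h2)

/-- change of variables under `GL₂⁺`. -/
theorem IsAnti.comp_smul {φ F : ℍ → ℂ} (h : IsAnti φ F) {A : GL (Fin 2) ℝ}
    (hA : 0 < A.det.val) : IsAnti (φ ∣[(2 : ℤ)] A) (fun z => F (A • z)) := by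
  intro τ
  have h1 : HasDerivAt (fun z ↦ ((A • ofComplex z : ℍ) : ℂ)) (A.val.det / denom A τ ^ 2) (τ : ℂ) :=
    (hasStrictDerivAt_smul (g := A) hA τ).hasDerivAt
  have h2 : HasDerivAt (F ∘ ofComplex) (φ (A • τ)) ((A • ofComplex (τ : ℂ) : ℍ) : ℂ) := by
    rw [ofComplex_apply]; exact h (A • τ)
  have h3 := HasDerivAt.comp (τ : ℂ) h2 h1
  have h4 : φ (A • τ) * (A.val.det / denom A τ ^ 2) = (φ ∣[(2 : ℤ)] A) τ := by
    rw [ModularForm.slash_apply, σ, if_pos hA]
    simp only [ContinuousAlgEquiv.refl_apply]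
    rw [abs_of_pos hA]
    norm_num
    rw [div_eq_mul_inv, mul_assoc]
  rw [h4] at h3
  refine h3.congr_of_eventuallyEq ?_
  exact Eventually.of_forall fun z => by simp

theorem IsPrim.comp_smul {φ F : ℍ → ℂ} (h : IsPrim φ F) {A : GL (Fin 2) ℝ}
    (hA : 0 < A.det.val) (hA0 : A 1 0 = 0) : IsPrim (φ ∣[(2 : ℤ)] A) (fun z => F (A • z)) := by
  refine ⟨h.deriv.comp_smul hA, fun z => ?_⟩
  have hdet : 0 < A 0 0 * A 1 1 := by
    have : A.det.val = A 0 0 * A 1 1 - A 0 1 * A 1 0 := by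
      rw [Matrix.GeneralLinearGroup.val_det_apply, Matrix.det_fin_two]
    rw [this, hA0, mul_zero, sub_zero] at hA
    exact hA
  have hd : A 1 1 ≠ 0 := fun h0 => by simp [h0] at hdet
  have hr : 0 < A 0 0 / A 1 1 := by
    have : A 0 0 / A 1 1 = (A 0 0 * A 1 1) / (A 1 1) ^ 2 := by field_simp
    rw [this]
    positivity
  have h1 := (h.lim ((A 0 0 * z + A 0 1) / A 1 1)).comp (tendsto_id.const_mul_atTop hr)
  refine h1.congr' ?_
  filter_upwards [eventually_gt_atTop (max 0 (-z.im))] with t ht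
  have ht0 : 0 < t := lt_of_le_of_lt (le_max_left _ _) ht
  have hz : 0 < (z + t * I).im := by
    have := lt_of_le_of_lt (le_max_right _ _) ht
    simp
    linarith
  simp only [comp_apply, id]
  congr 1
  ext
  rw [coe_smul_of_det_pos hA, ofComplex_apply_of_im_pos hz]
  have hd' : (A 1 1 : ℂ) ≠ 0 := by exact_mod_cast hd
  have e1 : (((A 0 0 * z + A 0 1) / A 1 1 + ((A 0 0 / A 1 1 * t : ℝ) : ℂ) * I)) =
      num A (z + t * I) / denom A (z + t * I) := by
    simp only [num, denom, hA0, ofReal_zero, zero_mul, zero_add]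
    push_cast
    field_simp
    ring
  have him : 0 < (((A 0 0 * z + A 0 1) / A 1 1 + ((A 0 0 / A 1 1 * t : ℝ) : ℂ) * I)).im := by
    rw [e1]
    have := (A • (⟨_, hz⟩ : ℍ)).im_pos
    rw [← coe_im, coe_smul_of_det_pos hA] at this
    exact this
  rw [ofComplex_apply_of_im_pos him]
  exact e1

end Fermat.Agent.EichlerShimura
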