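import Fermat.Agent.EichlerShimura.Prim

set_option autoImplicit false

noncomputable section

namespace Fermat.Agent.EichlerShimura

open UpperHalfPlane hiding I
open Complex Filter Topology Function Metric Asymptotics
open scoped Real Manifold MatrixGroups ModularForm

def HasPrim (φ : ℍ → ℂ) : Prop := ∃ F, IsPrim φ F

open Classical in
/-- the normalised primitive (zero if there is none) -/
def prim (φ : ℍ → ℂ) : ℍ → ℂ := if h : HasPrim φ then h.choose else 0

theorem HasPrim.isPrim {φ : ℍ → ℂ} (h : HasPrim φ) : IsPrim φ (prim φ) := by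
  rw [prim, dif_pos h]; exact h.choose_spec

theorem IsPrim.hasPrim {φ F : ℍ → ℂ} (h : IsPrim φ F) : HasPrim φ := ⟨F, h⟩

theorem IsPrim.prim_eq {φ F : ℍ → ℂ} (h : IsPrim φ F) : prim φ = F :=
  h.hasPrim.isPrim.unique h

theorem HasPrim.add {φ ψ : ℍ → ℂ} (h : HasPrim φ) (h' : HasPrim ψ) : HasPrim (φ + ψ) :=
  (h.isPrim.add h'.isPrim).hasPrim

theorem HasPrim.smul {φ : ℍ → ℂ} (c : ℂ) (h : HasPrim φ) : HasPrim (c • φ) :=
  (h.isPrim.smul c).hasPrim

theorem HasPrim.zero : HasPrim (0 : ℍ → ℂ) := IsPrim.zero.hasPrim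

theorem prim_add {φ ψ : ℍ → ℂ} (h : HasPrim φ) (h' : HasPrim ψ) :
    prim (φ + ψ) = prim φ + prim ψ := (h.isPrim.add h'.isPrim).prim_eq

theorem prim_smul {φ : ℍ → ℂ} (c : ℂ) (h : HasPrim φ) : prim (c • φ) = c • prim φ :=
  (h.isPrim.smul c).prim_eq

theorem prim_zero : prim (0 : ℍ → ℂ) = 0 := IsPrim.zero.prim_eq

theorem tendsto_vertical (z : ℂ) :
    Tendsto (fun t : ℝ => ofComplex (z + t * I)) atTop atImInfty := by
  refine tendsto_comap_im_ofComplex.comp ?_
  refine tendsto_comap_iff.mpr ?_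
  have : (Complex.im ∘ fun t : ℝ => z + t * I) = fun t : ℝ => z.im + t := by
    funext t; simp
  rw [this]
  exact tendsto_atTop_add_const_left _ _ tendsto_id

theorem IsQ.tendsto_mul_pow {h : ℝ} (hh : 0 < h) {G : ℍ → ℂ} (hG : IsQ h G) (z z₀ : ℂ) (j : ℕ) :
    Tendsto (fun t : ℝ => G (ofComplex (z + t * I)) * (((ofComplex (z + t * I) : ℍ) : ℂ) - z₀) ^ j)
      atTop (𝓝 0) := by
  have h1 : (fun t : ℝ => G (ofComplex (z + t * I))) =O[atTop]
      fun t : ℝ => Real.exp (-(2 * π / h) * t) := by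
    have := (hG.zero.exp_decay_atImInfty hh hG.per hG.holo
      hG.zero.isBoundedAtImInfty).comp_tendsto (tendsto_vertical z)
    refine this.trans ?_
    refine IsBigO.of_bound (Real.exp (-(2 * π / h) * z.im)) ?_
    filter_upwards [eventually_gt_atTop (-z.im)] with t ht
    have hz : 0 < (z + t * I).im := by simp; linarith
    simp only [comp_apply, ofComplex_apply_of_im_pos hz]
    rw [← UpperHalfPlane.coe_im]
    rw [Real.norm_of_nonneg (Real.exp_pos _).le, Real.norm_of_nonneg (Real.exp_pos _).le,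
      ← Real.exp_add]
    apply le_of_eq
    congr 1
    simp
    ring
  have h2 : (fun t : ℝ => (((ofComplex (z + t * I) : ℍ) : ℂ) - z₀) ^ j) =O[atTop]
      fun t : ℝ => t ^ j := by
    refine IsBigO.pow ?_ j
    have h3 : (fun t : ℝ => ((ofComplex (z + t * I) : ℍ) : ℂ) - z₀) =ᶠ[atTop]
        fun t : ℝ => (z - z₀) + t * I := by
      filter_upwards [eventually_gt_atTop (-z.im)] with t ht
      have hz : 0 < (z + t * I).im := by simp; linarith
      rw [ofComplex_apply_of_im_pos hz]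
      simp only
      ring
    refine h3.trans_isBigO ?_
    refine IsBigO.add ?_ ?_
    · refine (isBigO_const_const (z - z₀) (one_ne_zero (α := ℝ)) atTop).trans ?_
      refine IsBigO.of_bound 1 ?_
      filter_upwards [eventually_ge_atTop 1] with t ht
      simp only [norm_one, one_mul, Real.norm_eq_abs]
      exact ht.trans (le_abs_self _)
    · refine IsBigO.of_bound 1 ?_
      filter_upwards with t
      simp
  have h4 := h1.mul h2
  refine h4.trans_tendsto ?_
  have hb : 0 < 2 * π / h := by positivity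
  have h5 := isLittleO_pow_exp_pos_mul_atTop (k := j) hb
  have h6 := h5.tendsto_div_nhds_zero
  refine h6.congr fun t => ?_
  rw [neg_mul, Real.exp_neg, div_eq_mul_inv, mul_comm]

theorem IsQ.isPrim {h : ℝ} (hh : 0 < h) {g G : ℍ → ℂ} (hG : IsQ h G) (hd : IsAnti g G) :
    IsPrim g G :=
  ⟨hd, fun z => by simpa using hG.tendsto_mul_pow hh z 0 0⟩

theorem isPrim_step {h : ℝ} (hh : 0 < h) {g G F : ℍ → ℂ} (hG : IsQ h G) (hd : IsAnti g G)
    (z₀ : ℂ) (j : ℕ) (hF : IsPrim (fun w => G w * ((w : ℂ) - z₀) ^ j) F) :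
    IsPrim (fun w => g w * ((w : ℂ) - z₀) ^ (j + 1))
      (fun w => G w * ((w : ℂ) - z₀) ^ (j + 1) - (j + 1 : ℂ) * F w) := by
  refine ⟨fun τ => ?_, fun z => ?_⟩
  · have h1 : HasDerivAt (fun w : ℂ => (w - z₀) ^ (j + 1)) ((j + 1 : ℕ) * (τ - z₀) ^ j) (τ : ℂ) := by
      simpa using! ((hasDerivAt_id (τ : ℂ)).sub_const z₀).pow (j + 1)
    have h2 := ((hd τ).mul h1).sub ((hF.deriv τ).const_mul (j + 1 : ℂ))
    have h3 : g τ * ((τ : ℂ) - z₀) ^ (j + 1) + (G ∘ ofComplex) ↑τ * (((j + 1 : ℕ) : ℂ) *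
        (↑τ - z₀) ^ j) - (↑j + 1) * (G τ * (↑τ - z₀) ^ j) = g τ * ((τ : ℂ) - z₀) ^ (j + 1) := by
      simp only [comp_apply, ofComplex_apply]
      push_cast
      ring
    rw [h3] at h2
    refine h2.congr_of_eventuallyEq ?_
    filter_upwards [isOpen_upperHalfPlaneSet.mem_nhds τ.im_pos] with w hw
    have hw' : 0 < w.im := hw
    simp [ofComplex_apply_of_im_pos hw']
  · have := (hG.tendsto_mul_pow hh z z₀ (j + 1)).sub ((hF.lim z).const_mul (j + 1 : ℂ))
    simpa using this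

theorem IsQ.hasPrim_pow {h : ℝ} (hh : 0 < h) {g : ℍ → ℂ} (hg : IsQ h g) (z₀ : ℂ) (j : ℕ) :
    HasPrim (fun w => g w * ((w : ℂ) - z₀) ^ j) := by
  induction j generalizing g with
  | zero =>
    obtain ⟨G, hG, hd⟩ := hg.exists_primitive hh
    simpa using (hG.isPrim hh hd).hasPrim
  | succ j ih =>
    obtain ⟨G, hG, hd⟩ := hg.exists_primitive hh
    obtain ⟨F, hF⟩ := ih hG
    exact (isPrim_step hh hG hd z₀ j hF).hasPrim

theorem IsQ.isQ_prim {h : ℝ} (hh : 0 < h) {g : ℍ → ℂ} (hg : IsQ h g) : IsQ h (prim g) := by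
  obtain ⟨G, hG, hd⟩ := hg.exists_primitive hh
  rw [(hG.isPrim hh hd).prim_eq]
  exact hG

theorem IsQ.isPrim_prim {h : ℝ} (hh : 0 < h) {g : ℍ → ℂ} (hg : IsQ h g) : IsPrim g (prim g) := by
  obtain ⟨G, hG, hd⟩ := hg.exists_primitive hh
  exact (hG.isPrim hh hd).hasPrim.isPrim

theorem IsQ.iterate {h : ℝ} (hh : 0 < h) {g : ℍ → ℂ} (hg : IsQ h g) (n : ℕ) :
    IsQ h (prim^[n] g) := by
  induction n generalizing g with
  | zero => exact hg
  | succ n ih => exact ih (hg.isQ_prim hh)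

/-- value at `z₀` of the primitive of `g(w)(w-z₀)^m`: iterated primitive. -/
theorem IsQ.prim_pow_apply {h : ℝ} (hh : 0 < h) {g : ℍ → ℂ} (hg : IsQ h g) (z₀ : ℍ) (m : ℕ) :
    prim (fun w => g w * ((w : ℂ) - z₀) ^ m) z₀ = (-1) ^ m * (m.factorial : ℂ) * prim^[m + 1] g z₀ := by
  induction m generalizing g with
  | zero => simp
  | succ m ih =>
    have hG := hg.isQ_prim hh
    have hd := (hg.isPrim_prim hh).deriv
    have h1 := isPrim_step hh hG hd z₀ m (hG.hasPrim_pow hh z₀ m).isPrim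
    rw [h1.prim_eq]
    simp only [sub_self]
    rw [ih hG, ← iterate_succ_apply, Nat.factorial_succ]
    push_cast
    ring

theorem eq_zero_of_iterate_prim_eq_zero {h : ℝ} (hh : 0 < h) {g : ℍ → ℂ} (hg : IsQ h g) (n : ℕ)
    (h0 : prim^[n] g = 0) : g = 0 := by
  induction n generalizing g with
  | zero => exact h0
  | succ n ih =>
    have h1 : prim g = 0 := ih (hg.isQ_prim hh) h0
    have h2 := (hg.isPrim_prim hh).deriv
    rw [h1] at h2
    funext τ
    exact (h2 τ).unique (hasDerivAt_const _ _)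

end Fermat.Agent.EichlerShimura
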