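import Mathlib

set_option autoImplicit false

noncomputable section

namespace Fermat.Agent.EichlerShimura

open UpperHalfPlane hiding I
open Complex Filter Topology Function Metric
open scoped Real Manifold

/-- Holomorphic `h`-periodic functions on the upper half plane which vanish at `i∞`. -/
structure IsQ (h : ℝ) (g : ℍ → ℂ) : Prop where
  per : Periodic (g ∘ ofComplex) h
  holo : MDiff g
  zero : IsZeroAtImInfty g

theorem periodic_comp_ofComplex_of {h : ℝ} {g : ℍ → ℂ}
    (H : ∀ z w : ℍ, (w : ℂ) = z + h → g w = g z) : Periodic (g ∘ ofComplex) h := by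
  intro z
  by_cases hz : 0 < z.im
  · have hz' : 0 < (z + (h : ℂ)).im := by simpa using hz
    simp only [comp_apply, ofComplex_apply_of_im_pos hz, ofComplex_apply_of_im_pos hz']
    exact H _ _ rfl
  · have hz' : (z + (h : ℂ)).im ≤ 0 := by simpa using hz
    simp only [comp_apply]
    rw [ofComplex_apply_eq_of_im_nonpos hz' (not_lt.mp hz)]

theorem IsQ.exists_primitive {h : ℝ} (hh : 0 < h) {g : ℍ → ℂ} (hg : IsQ h g) :
    ∃ G : ℍ → ℂ, IsQ h G ∧ ∀ τ : ℍ, HasDerivAt (G ∘ ofComplex) (g τ) τ := by
  set c := cuspFunction h g with hcdef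
  have hc : DifferentiableOn ℂ c (ball 0 1) :=
    differentiableOn_cuspFunction_ball hh hg.per hg.holo hg.zero.isBoundedAtImInfty
  have hc0 : c 0 = 0 := hg.zero.cuspFunction_apply_zero hh
  have hd : DifferentiableOn ℂ (dslope c 0) (ball 0 1) :=
    (differentiableOn_dslope (ball_mem_nhds _ one_pos)).2 hc
  obtain ⟨H, hH0, hH⟩ := (hd.isExactOn_ball).with_val_at 0 0
  have hder : ∀ τ : ℍ, HasDerivAt ((fun τ : ℍ => ((h : ℂ) / (2 * π * I)) * H (Periodic.qParam h τ)) ∘ ofComplex)
      (g τ) τ := by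
    intro τ
    have hq : HasDerivAt (Periodic.qParam h) (Periodic.qParam h τ * (2 * π * I / h)) (τ : ℂ) := by
      have := (((hasDerivAt_id (τ : ℂ)).const_mul (2 * π * I)).div_const (h : ℂ)).cexp
      simpa only [Periodic.qParam, id_eq, mul_one] using! this
    have hqlt : Periodic.qParam h (τ : ℂ) ∈ ball (0 : ℂ) 1 := by
      rw [mem_ball_zero_iff]
      exact Periodic.norm_qParam_lt_one hh τ.im_pos
    have hqne : Periodic.qParam h (τ : ℂ) ≠ 0 := Periodic.qParam_ne_zero _
    have h1 : HasDerivAt (fun z : ℂ => ((h : ℂ) / (2 * π * I)) * H (Periodic.qParam h z))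
        (((h : ℂ) / (2 * π * I)) * (dslope c 0 (Periodic.qParam h τ) *
          (Periodic.qParam h τ * (2 * π * I / h)))) (τ : ℂ) :=
      ((hH _ hqlt).comp (τ : ℂ) hq).const_mul _
    have h2 : ((h : ℂ) / (2 * π * I)) * (dslope c 0 (Periodic.qParam h τ) *
          (Periodic.qParam h τ * (2 * π * I / h))) = g τ := by
      rw [dslope_of_ne _ hqne, slope_def_field, hc0, ← UpperHalfPlane.eq_cuspFunction τ hh.ne' hg.per]
      have hh' : (h : ℂ) ≠ 0 := by exact_mod_cast hh.ne'
      have hpi : (π : ℂ) ≠ 0 := by exact_mod_cast Real.pi_ne_zero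
      have hI : (I : ℂ) ≠ 0 := I_ne_zero
      rw [sub_zero, sub_zero]
      field_simp
      rfl
    rw [h2] at h1
    refine h1.congr_of_eventuallyEq ?_
    filter_upwards [isOpen_upperHalfPlaneSet.mem_nhds τ.im_pos] with z hz
    have hz' : 0 < z.im := hz
    simp only [comp_apply, ofComplex_apply_of_im_pos hz']
  refine ⟨fun τ => ((h : ℂ) / (2 * π * I)) * H (Periodic.qParam h τ), ⟨?_, ?_, ?_⟩, hder⟩
  · refine periodic_comp_ofComplex_of fun z w hzw => ?_
    have : Periodic.qParam h (w : ℂ) = Periodic.qParam h (z : ℂ) := by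
      rw [hzw]
      have hh' : (h : ℂ) ≠ 0 := by exact_mod_cast hh.ne'
      simp only [Periodic.qParam]
      rw [show 2 * (π : ℂ) * I * ((z : ℂ) + h) / h = 2 * π * I * z / h + 2 * π * I by
        field_simp, exp_periodic]
    simp only [this]
  · rw [UpperHalfPlane.mdifferentiable_iff]
    intro z hz
    have := (hder ⟨z, hz⟩).differentiableAt
    exact this.differentiableWithinAt
  · have hcont : ContinuousAt H 0 := (hH 0 (mem_ball_self one_pos)).continuousAt
    have h3 : Tendsto (fun τ : ℍ => H (Periodic.qParam h τ)) atImInfty (𝓝 0) := by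
      have := hcont.tendsto.comp (qParam_tendsto_atImInfty hh)
      rwa [hH0] at this
    have h4 := h3.const_mul ((h : ℂ) / (2 * π * I))
    rw [mul_zero] at h4
    exact h4

end Fermat.Agent.EichlerShimura
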